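/-
Primes of degree one of a number field: `∑ N(P)^(-s) ~ log (1 / (s - 1))` as `s → 1+`,
deduced from the class number formula by elementary bounds (no exact Euler product needed).
-/
import Mathlib.NumberTheory.NumberField.DedekindZeta
import Mathlib.NumberTheory.SumPrimeReciprocals
import Mathlib.RingTheory.UniqueFactorizationDomain.Multiplicity
import Mathlib.Analysis.SpecialFunctions.Log.Basic
import Mathlib.Analysis.SpecificLimits.Basic

set_option autoImplicit false
set_option maxHeartbeats 200000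

open NumberField Filter Topology

noncomputable section

namespace Fermat.Agent.Density

variable (K : Type*) [Field K] [NumberField K]

/-- The number of primes of `K` of norm `ℓ`. -/
def numDegreeOne (ℓ : ℕ) : ℕ :=
  Nat.card {P : Ideal (𝓞 K) // P.IsPrime ∧ Ideal.absNorm P = ℓ}

/-- The sum over the primes of degree one of `N(P)^(-s)`. -/
def degreeOneSum (s : ℝ) : ℝ :=
  ∑' ℓ : Nat.Primes, (numDegreeOne K ℓ : ℝ) * (ℓ : ℝ) ^ (-s)

/-- The Dedekind zeta function, as a real sum over ideals. -/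
def idealSum (s : ℝ) : ℝ := ∑' I : Ideal (𝓞 K), (Ideal.absNorm I : ℝ) ^ (-s)

/-- The bound for the primes of higher degree and the higher powers. -/
def errBound : ℝ := (Module.finrank ℚ K : ℝ) * ∑' ℓ : Nat.Primes, (ℓ : ℝ) ^ (-(2 : ℝ))

variable {K}

/-- The prime number below a prime ideal. -/
def below (P : Ideal (𝓞 K)) : Nat.Primes :=
  if h : (Ideal.absNorm P).minFac.Prime then ⟨_, h⟩ else ⟨2, Nat.prime_two⟩

theorem below_spec {P : Ideal (𝓞 K)} (hP : P.IsPrime) (h0 : P ≠ ⊥) :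
    ((below P : ℕ) : 𝓞 K) ∈ P ∧ ∃ k, 0 < k ∧ Ideal.absNorm P = (below P : ℕ) ^ k := by
  have : P.IsMaximal := hP.isMaximal h0
  obtain ⟨p, n, hn, hmem, hp, hN⟩ := Ideal.exists_prime_and_absNorm_eq_pow P
  have hb : (below P : ℕ) = p := by
    have h1 : (Ideal.absNorm P).minFac = p := by rw [hN, hp.pow_minFac hn.ne']
    unfold below
    rw [dif_pos (h1 ▸ hp)]
    exact h1
  rw [hb]
  exact ⟨hmem, n, hn, hN⟩

theorem finite_setOf_prime_absNorm_eq (ℓ : ℕ) :
    {P : Ideal (𝓞 K) | P.IsPrime ∧ Ideal.absNorm P = ℓ}.Finite :=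
  (Ideal.finite_setOfPred_absNorm_eq ℓ).subset fun _ h => h.2

theorem ne_bot_of_absNorm_prime {P : Ideal (𝓞 K)} {ℓ : ℕ} (hℓ : ℓ.Prime)
    (h : Ideal.absNorm P = ℓ) : P ≠ ⊥ := by
  rintro rfl
  exact hℓ.ne_zero (by rw [← h, Ideal.absNorm_bot])

theorem card_le_finrank_of_mem {ℓ : ℕ} (hℓ : ℓ.Prime) {T : Finset (Ideal (𝓞 K))}
    (h1 : ∀ P ∈ T, P.IsPrime) (h0 : ∀ P ∈ T, P ≠ ⊥) (h : ∀ P ∈ T, (ℓ : 𝓞 K) ∈ P) :
    T.card ≤ Module.finrank ℚ K := by
  have hdvd : ∏ P ∈ T, P ∣ Ideal.span {(ℓ : 𝓞 K)} :=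
    Finset.prod_primes_dvd _ (fun P hP => Ideal.prime_of_isPrime (h0 P hP) (h1 P hP))
      (fun P hP => Ideal.dvd_iff_le.2 ((Ideal.span_singleton_le_iff_mem _).2 (h P hP)))
  have h2 : ∏ P ∈ T, Ideal.absNorm P ∣ ℓ ^ Module.finrank ℚ K := by
    have := map_dvd Ideal.absNorm hdvd
    rwa [map_prod, Ideal.absNorm_span_natCast, RingOfIntegers.rank] at this
  have h3 : ℓ ^ T.card ≤ ∏ P ∈ T, Ideal.absNorm P := by
    rw [← Finset.prod_const]
    refine Finset.prod_le_prod' fun P hP => Nat.le_of_dvd ?_ ?_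
    · exact Nat.pos_of_ne_zero fun h' => h0 P hP (Ideal.absNorm_eq_zero_iff.1 h')
    · have : P.IsMaximal := (h1 P hP).isMaximal (h0 P hP)
      obtain ⟨p, n, hn, hmem, hp, hN⟩ := Ideal.exists_prime_and_absNorm_eq_pow P
      rw [hN]
      have : p = ℓ := by
        by_contra hne
        obtain ⟨a, b, hab⟩ := Nat.isCoprime_iff_coprime.2 ((Nat.coprime_primes hp hℓ).2 hne)
        apply (h1 P hP).ne_top
        rw [Ideal.eq_top_iff_one]
        have h4 : (a : 𝓞 K) * (p : 𝓞 K) + (b : 𝓞 K) * (ℓ : 𝓞 K) = 1 := by exact_mod_cast hab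
        rw [← h4]
        exact P.add_mem (P.mul_mem_left _ hmem) (P.mul_mem_left _ (h P hP))
      exact this ▸ dvd_pow_self p hn.ne'
  exact (Nat.pow_le_pow_iff_right hℓ.one_lt).1
    (h3.trans (Nat.le_of_dvd (pow_pos hℓ.pos _) h2))

theorem numDegreeOne_le (ℓ : Nat.Primes) : numDegreeOne K ℓ ≤ Module.finrank ℚ K := by
  have h := finite_setOf_prime_absNorm_eq (K := K) ℓ
  rw [numDegreeOne, ← Set.coe_ofPred, Nat.card_coe_set_eq, Set.ncard_eq_toFinset_card _ h]
  refine card_le_finrank_of_mem ℓ.2 ?_ ?_ ?_ <;> intro P hP <;>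
    simp only [Set.Finite.mem_toFinset, Set.mem_ofPred_eq] at hP
  · exact hP.1
  · exact ne_bot_of_absNorm_prime ℓ.2 hP.2
  · exact hP.2 ▸ Ideal.absNorm_mem P

theorem summable_degreeOne {s : ℝ} (hs : 1 < s) :
    Summable fun ℓ : Nat.Primes => (numDegreeOne K ℓ : ℝ) * (ℓ : ℝ) ^ (-s) := by
  refine Summable.of_nonneg_of_le (fun _ => by positivity) (fun ℓ => ?_)
    ((Nat.Primes.summable_rpow.2 (show -s < -1 by linarith)).mul_left (Module.finrank ℚ K : ℝ))
  gcongr
  exact_mod_cast numDegreeOne_le ℓ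

theorem summable_inv_sq_primes : Summable fun ℓ : Nat.Primes => (ℓ : ℝ) ^ (-(2 : ℝ)) :=
  Nat.Primes.summable_rpow.2 (by norm_num)

/-- Sums over prime ideals of a function of the prime below. -/
theorem sum_below_le (g : Nat.Primes → ℝ) (hg : ∀ ℓ, 0 ≤ g ℓ) (hsum : Summable g)
    (T : Finset (Ideal (𝓞 K))) (hT : ∀ P ∈ T, P.IsPrime ∧ P ≠ ⊥) :
    ∑ P ∈ T, g (below P) ≤ (Module.finrank ℚ K : ℝ) * ∑' ℓ, g ℓ := by
  classical
  rw [← Finset.sum_fiberwise_of_maps_to (fun P hP => Finset.mem_image_of_mem below hP)]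
  calc ∑ ℓ ∈ T.image below, ∑ P ∈ T.filter (fun P => below P = ℓ), g (below P)
      ≤ ∑ ℓ ∈ T.image below, (Module.finrank ℚ K : ℝ) * g ℓ := by
        refine Finset.sum_le_sum fun ℓ _ => ?_
        rw [Finset.sum_congr rfl (g := fun _ => g ℓ)
          (fun P hP => by rw [(Finset.mem_filter.1 hP).2]), Finset.sum_const, nsmul_eq_mul]
        refine mul_le_mul_of_nonneg_right ?_ (hg ℓ)
        norm_cast
        refine card_le_finrank_of_mem ℓ.2 ?_ ?_ ?_ <;> intro P hP <;>
          obtain ⟨hP, hb⟩ := Finset.mem_filter.1 hP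
        · exact (hT P hP).1
        · exact (hT P hP).2
        · exact hb ▸ (below_spec (hT P hP).1 (hT P hP).2).1
    _ ≤ _ := by
        rw [← Finset.mul_sum]
        exact mul_le_mul_of_nonneg_left (hsum.sum_le_tsum _ fun i _ => hg i) (Nat.cast_nonneg _)

theorem two_le_absNorm {P : Ideal (𝓞 K)} (hP : P.IsPrime) (h0 : P ≠ ⊥) :
    2 ≤ Ideal.absNorm P := by
  obtain ⟨-, k, hk, hN⟩ := below_spec hP h0
  rw [hN]
  calc 2 ≤ (below P : ℕ) := (below P).2.two_le
    _ = (below P : ℕ) ^ 1 := (pow_one _).symm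
    _ ≤ _ := Nat.pow_le_pow_right (below P).2.pos hk

theorem sq_term_le {P : Ideal (𝓞 K)} (hP : P.IsPrime) (h0 : P ≠ ⊥) {s : ℝ} (hs : 1 ≤ s) :
    ((Ideal.absNorm P : ℝ) ^ (-s)) ^ 2 ≤ ((below P : ℕ) : ℝ) ^ (-(2 : ℝ)) := by
  obtain ⟨-, k, hk, hN⟩ := below_spec hP h0
  have hb : (1 : ℝ) ≤ ((below P : ℕ) : ℝ) := by exact_mod_cast (below P).2.one_le
  rw [hN, Nat.cast_pow, ← Real.rpow_natCast _ k, ← Real.rpow_mul (by positivity),
    ← Real.rpow_natCast _ 2, ← Real.rpow_mul (by positivity)]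
  refine Real.rpow_le_rpow_of_exponent_le hb ?_
  have : (1 : ℝ) ≤ k := by exact_mod_cast hk
  push_cast
  nlinarith

theorem term_le_of_not_prime {P : Ideal (𝓞 K)} (hP : P.IsPrime) (h0 : P ≠ ⊥) {s : ℝ} (hs : 1 ≤ s)
    (hd : ¬(Ideal.absNorm P).Prime) :
    (Ideal.absNorm P : ℝ) ^ (-s) ≤ ((below P : ℕ) : ℝ) ^ (-(2 : ℝ)) := by
  obtain ⟨-, k, hk, hN⟩ := below_spec hP h0
  have hk2 : 2 ≤ k := by
    by_contra h
    obtain rfl : k = 1 := by omega
    exact hd (by rw [hN, pow_one]; exact (below P).2)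
  have hb : (1 : ℝ) ≤ ((below P : ℕ) : ℝ) := by exact_mod_cast (below P).2.one_le
  rw [hN, Nat.cast_pow, ← Real.rpow_natCast _ k, ← Real.rpow_mul (by positivity)]
  refine Real.rpow_le_rpow_of_exponent_le hb ?_
  have : (2 : ℝ) ≤ k := by exact_mod_cast hk2
  nlinarith

theorem sum_le_degreeOneSum {s : ℝ} (hs : 1 < s) (T : Finset (Ideal (𝓞 K)))
    (hT : ∀ P ∈ T, P.IsPrime ∧ (Ideal.absNorm P).Prime) :
    ∑ P ∈ T, (Ideal.absNorm P : ℝ) ^ (-s) ≤ degreeOneSum K s := by
  classical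
  have hb : ∀ P ∈ T, (below P : ℕ) = Ideal.absNorm P := by
    intro P hP
    unfold below
    rw [dif_pos ((hT P hP).2.minFac_eq.symm ▸ (hT P hP).2)]
    exact (hT P hP).2.minFac_eq
  rw [← Finset.sum_fiberwise_of_maps_to (fun P hP => Finset.mem_image_of_mem below hP)]
  refine le_trans (Finset.sum_le_sum fun ℓ _ => ?_)
    ((summable_degreeOne hs).sum_le_tsum _ fun i _ => by positivity)
  rw [Finset.sum_congr rfl (g := fun _ => ((ℓ : ℕ) : ℝ) ^ (-s)) (fun P hP => by
      rw [← hb P (Finset.mem_filter.1 hP).1, (Finset.mem_filter.1 hP).2]),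
    Finset.sum_const, nsmul_eq_mul]
  refine mul_le_mul_of_nonneg_right ?_ (by positivity)
  norm_cast
  rw [numDegreeOne, ← Set.coe_ofPred, Nat.card_coe_set_eq,
    Set.ncard_eq_toFinset_card _ (finite_setOf_prime_absNorm_eq _)]
  refine Finset.card_le_card fun P hP => ?_
  obtain ⟨hP, hbP⟩ := Finset.mem_filter.1 hP
  simp only [Set.Finite.mem_toFinset, Set.mem_ofPred_eq]
  exact ⟨(hT P hP).1, by rw [← hb P hP, hbP]⟩

/-- Upper bound for sums over ideals supported on a finite set of primes. -/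
theorem sum_le_prod_exp {s : ℝ} (hs : 1 < s) (S : Finset (Ideal (𝓞 K))) :
    (∀ P ∈ S, P.IsPrime ∧ P ≠ ⊥) → ∀ T : Finset (Ideal (𝓞 K)),
      (∀ I ∈ T, I ≠ ⊥ ∧ ∀ P : Ideal (𝓞 K), P.IsPrime → P ≠ ⊥ → P ∣ I → P ∈ S) →
      ∑ I ∈ T, (Ideal.absNorm I : ℝ) ^ (-s) ≤ ∏ P ∈ S,
        Real.exp ((Ideal.absNorm P : ℝ) ^ (-s) + 2 * ((Ideal.absNorm P : ℝ) ^ (-s)) ^ 2) := by
  classical
  induction S using Finset.induction_on with
  | empty =>
    intro _ T hT
    have : T ⊆ {⊤} := by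
      intro I hI
      rw [Finset.mem_singleton]
      by_contra hne
      obtain ⟨P, hP, hle⟩ := Ideal.exists_le_maximal I hne
      have h0 : P ≠ ⊥ := fun h => (hT I hI).1 (le_bot_iff.1 (h ▸ hle))
      exact absurd ((hT I hI).2 P hP.isPrime h0 (Ideal.dvd_iff_le.2 hle))
        (Finset.notMem_empty _)
    refine (Finset.sum_le_sum_of_subset_of_nonneg this fun _ _ _ => by positivity).trans ?_
    simp
  | insert p S hp ih =>
    intro hS T hT
    have hp1 := hS p (Finset.mem_insert_self p S)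
    have hpP : Prime p := Ideal.prime_of_isPrime hp1.2 hp1.1
    set x := (Ideal.absNorm p : ℝ) ^ (-s) with hx
    have hdec : ∀ I ∈ T, ∃ eJ : ℕ × Ideal (𝓞 K), ¬p ∣ eJ.2 ∧ I = p ^ eJ.1 * eJ.2 := by
      intro I hI
      obtain ⟨e, J, h1, h2⟩ := WfDvdMonoid.max_power_factor (hT I hI).1 hpP.irreducible
      exact ⟨(e, J), h1, h2⟩
    choose! f hf1 hf2 using hdec
    set T' := T.image fun I => (f I).2 with hT'def
    set E := (T.sup fun I => (f I).1) + 1
    have hT' : ∀ J ∈ T', J ≠ ⊥ ∧ ∀ P : Ideal (𝓞 K), P.IsPrime → P ≠ ⊥ → P ∣ J → P ∈ S := by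
      intro J hJ
      obtain ⟨I, hI, rfl⟩ := Finset.mem_image.1 hJ
      refine ⟨fun h => (hT I hI).1 ?_, fun P hP h0 hdvd => ?_⟩
      · rw [hf2 I hI, h, Ideal.mul_bot]
      · have hJI : (f I).2 ∣ I := Dvd.intro_left _ (hf2 I hI).symm
        rcases Finset.mem_insert.1 ((hT I hI).2 P hP h0 (hdvd.trans hJI)) with h | h
        · subst h
          exact absurd hdvd (hf1 I hI)
        · exact h
    have hsum : ∑ I ∈ T, (Ideal.absNorm I : ℝ) ^ (-s) ≤
        (∑ e ∈ Finset.range E, x ^ e) * ∑ J ∈ T', (Ideal.absNorm J : ℝ) ^ (-s) := by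
      rw [Finset.sum_mul_sum, ← Finset.sum_product']
      calc ∑ I ∈ T, (Ideal.absNorm I : ℝ) ^ (-s)
          = ∑ I ∈ T, x ^ (f I).1 * (Ideal.absNorm (f I).2 : ℝ) ^ (-s) := by
            refine Finset.sum_congr rfl fun I hI => ?_
            conv_lhs => rw [hf2 I hI, map_mul, map_pow, Nat.cast_mul, Nat.cast_pow,
              Real.mul_rpow (by positivity) (by positivity), ← Real.rpow_pow_comm (by positivity)]
        _ = ∑ eJ ∈ T.image f, x ^ eJ.1 * (Ideal.absNorm eJ.2 : ℝ) ^ (-s) := by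
            rw [Finset.sum_image]
            intro I hI J hJ h
            rw [hf2 I hI, hf2 J hJ, h]
        _ ≤ _ := by
            refine Finset.sum_le_sum_of_subset_of_nonneg ?_ fun _ _ _ => by positivity
            intro eJ heJ
            obtain ⟨I, hI, rfl⟩ := Finset.mem_image.1 heJ
            exact Finset.mem_product.2 ⟨Finset.mem_range.2 (Nat.lt_succ_iff.2
              (Finset.le_sup (f := fun I => (f I).1) hI)), Finset.mem_image_of_mem _ hI⟩
    have hN : (2 : ℝ) ≤ (Ideal.absNorm p : ℝ) := by exact_mod_cast two_le_absNorm hp1.1 hp1.2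
    have hx0 : 0 ≤ x := by positivity
    have hx2 : x ≤ 1 / 2 := by
      calc x ≤ (Ideal.absNorm p : ℝ) ^ (-(1 : ℝ)) :=
            Real.rpow_le_rpow_of_exponent_le (by linarith) (by linarith)
        _ ≤ 1 / 2 := by
            rw [Real.rpow_neg_one, one_div]
            exact inv_anti₀ (by norm_num) hN
    have hgeom : ∑ e ∈ Finset.range E, x ^ e ≤ Real.exp (x + 2 * x ^ 2) := by
      refine ((summable_geometric_of_lt_one hx0 (by linarith)).sum_le_tsum _
        fun i _ => by positivity).trans ?_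
      rw [tsum_geometric_of_lt_one hx0 (by linarith)]
      refine le_trans ?_ (Real.add_one_le_exp _)
      rw [inv_le_iff_one_le_mul₀ (by linarith)]
      nlinarith [mul_nonneg (sq_nonneg x) (show (0 : ℝ) ≤ 1 - 2 * x by linarith)]
    rw [Finset.prod_insert hp]
    refine hsum.trans (mul_le_mul hgeom (ih (fun P hP => hS P (Finset.mem_insert_of_mem hP))
      T' hT') (Finset.sum_nonneg fun _ _ => by positivity) (Real.exp_nonneg _))

theorem sum_ideals_le {s : ℝ} (hs : 1 < s) (T : Finset (Ideal (𝓞 K))) :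
    ∑ I ∈ T, (Ideal.absNorm I : ℝ) ^ (-s) ≤ Real.exp (degreeOneSum K s + 3 * errBound K) := by
  classical
  set T₀ := T.filter fun I => I ≠ ⊥
  have h0 : ∑ I ∈ T, (Ideal.absNorm I : ℝ) ^ (-s) = ∑ I ∈ T₀, (Ideal.absNorm I : ℝ) ^ (-s) := by
    refine (Finset.sum_filter_of_ne (p := fun I => I ≠ ⊥) fun I _ h hI => h ?_).symm
    rw [hI, Ideal.absNorm_bot, Nat.cast_zero, Real.zero_rpow (by linarith)]
  set S := T₀.biUnion fun I => (UniqueFactorizationMonoid.normalizedFactors I).toFinset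
  have hS : ∀ P ∈ S, P.IsPrime ∧ P ≠ ⊥ := by
    intro P hP
    obtain ⟨I, -, hPI⟩ := Finset.mem_biUnion.1 hP
    have h := UniqueFactorizationMonoid.prime_of_normalized_factor P (Multiset.mem_toFinset.1 hPI)
    exact ⟨Ideal.isPrime_of_prime h, h.ne_zero⟩
  rw [h0]
  refine (sum_le_prod_exp hs S hS T₀ fun I hI => ?_).trans ?_
  · have hI0 := (Finset.mem_filter.1 hI).2
    refine ⟨hI0, fun P hP h0 hdvd => Finset.mem_biUnion.2 ⟨I, hI, Multiset.mem_toFinset.2 ?_⟩⟩
    obtain ⟨Q, hQ, hass⟩ := UniqueFactorizationMonoid.exists_mem_normalizedFactors_of_dvd hI0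
      (Ideal.prime_of_isPrime h0 hP).irreducible hdvd
    rwa [associated_iff_eq.1 hass]
  rw [← Real.exp_sum, Real.exp_le_exp]
  calc ∑ P ∈ S, ((Ideal.absNorm P : ℝ) ^ (-s) + 2 * ((Ideal.absNorm P : ℝ) ^ (-s)) ^ 2)
      ≤ ∑ P ∈ S, ((if (Ideal.absNorm P).Prime then (Ideal.absNorm P : ℝ) ^ (-s) else 0) +
          3 * ((below P : ℕ) : ℝ) ^ (-(2 : ℝ))) := by
        refine Finset.sum_le_sum fun P hP => ?_
        have h1 := sq_term_le (hS P hP).1 (hS P hP).2 hs.le
        have h2 : (0 : ℝ) ≤ ((below P : ℕ) : ℝ) ^ (-(2 : ℝ)) := by positivity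
        split_ifs with hd
        · linarith
        · linarith [term_le_of_not_prime (hS P hP).1 (hS P hP).2 hs.le hd]
    _ ≤ degreeOneSum K s + 3 * errBound K := by
        rw [Finset.sum_add_distrib, ← Finset.mul_sum, ← Finset.sum_filter]
        refine add_le_add (sum_le_degreeOneSum hs _ fun P hP => ?_) ?_
        · obtain ⟨hP, hd⟩ := Finset.mem_filter.1 hP
          exact ⟨(hS P hP).1, hd⟩
        · exact mul_le_mul_of_nonneg_left (sum_below_le _ (fun _ => by positivity)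
            summable_inv_sq_primes S hS) (by norm_num)

theorem summable_idealSum {s : ℝ} (hs : 1 < s) :
    Summable fun I : Ideal (𝓞 K) => (Ideal.absNorm I : ℝ) ^ (-s) :=
  summable_of_sum_le (fun _ => by positivity) (sum_ideals_le hs)

theorem one_le_idealSum {s : ℝ} (hs : 1 < s) : 1 ≤ idealSum K s := by
  have := (summable_idealSum (K := K) hs).le_tsum ⊤ fun _ _ => by positivity
  rw [idealSum]
  refine le_trans ?_ this
  simp

theorem log_idealSum_le {s : ℝ} (hs : 1 < s) :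
    Real.log (idealSum K s) ≤ degreeOneSum K s + 3 * errBound K := by
  rw [Real.log_le_iff_le_exp (zero_lt_one.trans_le (one_le_idealSum hs))]
  exact Real.tsum_le_of_sum_le (fun _ => by positivity) (sum_ideals_le hs)

theorem degreeOneSum_le {s : ℝ} (hs : 1 < s) :
    degreeOneSum K s ≤ Real.log (idealSum K s) + errBound K := by
  classical
  refine (summable_degreeOne hs).tsum_le_of_sum_le fun U => ?_
  set A : Nat.Primes → Finset (Ideal (𝓞 K)) := fun ℓ =>
    (finite_setOf_prime_absNorm_eq (K := K) ℓ).toFinset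
  have hA : ∀ ℓ P, P ∈ A ℓ ↔ P.IsPrime ∧ Ideal.absNorm P = (ℓ : ℕ) := fun ℓ P =>
    Set.Finite.mem_toFinset _
  have hdis : (U : Set Nat.Primes).PairwiseDisjoint A := by
    intro a _ b _ hab
    exact Finset.disjoint_left.2 fun P ha hb =>
      hab (Subtype.ext (((hA a P).1 ha).2.symm.trans ((hA b P).1 hb).2))
  set T := U.biUnion A
  have hT : ∀ P ∈ T, P.IsPrime ∧ P ≠ ⊥ := by
    intro P hP
    obtain ⟨ℓ, -, hℓ⟩ := Finset.mem_biUnion.1 hP
    exact ⟨((hA ℓ P).1 hℓ).1, ne_bot_of_absNorm_prime ℓ.2 ((hA ℓ P).1 hℓ).2⟩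
  have hU : ∑ ℓ ∈ U, (numDegreeOne K ℓ : ℝ) * ((ℓ : ℕ) : ℝ) ^ (-s) =
      ∑ P ∈ T, (Ideal.absNorm P : ℝ) ^ (-s) := by
    rw [Finset.sum_biUnion hdis]
    refine Finset.sum_congr rfl fun ℓ _ => ?_
    rw [Finset.sum_congr rfl (g := fun _ => ((ℓ : ℕ) : ℝ) ^ (-s))
      (fun P hP => by rw [((hA ℓ P).1 hP).2]), Finset.sum_const, nsmul_eq_mul, numDegreeOne,
      ← Set.coe_ofPred, Nat.card_coe_set_eq, Set.ncard_eq_toFinset_card _
        (finite_setOf_prime_absNorm_eq _)]
  rw [hU]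
  have h1 : ∑ P ∈ T, (Ideal.absNorm P : ℝ) ^ (-s) ≤
      ∑ P ∈ T, (Real.log (1 + (Ideal.absNorm P : ℝ) ^ (-s)) +
        ((below P : ℕ) : ℝ) ^ (-(2 : ℝ))) := by
    refine Finset.sum_le_sum fun P hP => ?_
    set x := (Ideal.absNorm P : ℝ) ^ (-s) with hx
    have hx0 : 0 ≤ x := by positivity
    have h1 := Real.one_sub_inv_le_log_of_pos (show (0 : ℝ) < 1 + x by linarith)
    have h2 : x - x ^ 2 ≤ 1 - (1 + x)⁻¹ := by
      rw [inv_eq_one_div, le_sub_iff_add_le, ← le_sub_iff_add_le', div_le_iff₀ (by linarith)]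
      nlinarith [pow_nonneg hx0 3]
    linarith [sq_term_le (hT P hP).1 (hT P hP).2 hs.le]
  refine h1.trans ?_
  rw [Finset.sum_add_distrib]
  refine add_le_add ?_ (sum_below_le _ (fun _ => by positivity) summable_inv_sq_primes T hT)
  rw [← Real.log_prod (fun P _ => by positivity)]
  refine Real.log_le_log (Finset.prod_pos fun P _ => by positivity) ?_
  rw [Finset.prod_one_add]
  calc ∑ t ∈ T.powerset, ∏ P ∈ t, (Ideal.absNorm P : ℝ) ^ (-s)
      = ∑ I ∈ T.powerset.image (fun t => ∏ P ∈ t, P), (Ideal.absNorm I : ℝ) ^ (-s) := by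
        rw [Finset.sum_image]
        · refine Finset.sum_congr rfl fun t _ => ?_
          rw [map_prod, Nat.cast_prod, Real.finsetProd_rpow _ _ fun _ _ => by positivity]
        · intro t ht u hu h
          have key : ∀ v w : Finset (Ideal (𝓞 K)), v ⊆ T → w ⊆ T →
              ∏ P ∈ v, P = ∏ P ∈ w, P → v ⊆ w := by
            intro v w hv hw hvw P hP
            have hpr : Prime P := Ideal.prime_of_isPrime (hT P (hv hP)).2 (hT P (hv hP)).1
            obtain ⟨Q, hQ, hPQ⟩ := (Prime.dvd_finsetProd_iff hpr _).1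
              (hvw ▸ Finset.dvd_prod_of_mem _ hP)
            have hQ' := hT Q (hw hQ)
            have : Q = P := (hQ'.1.isMaximal hQ'.2).eq_of_le (hT P (hv hP)).1.ne_top
              (Ideal.dvd_iff_le.1 hPQ)
            exact this ▸ hQ
          simp only [Finset.mem_coe, Finset.mem_powerset] at ht hu
          exact Finset.Subset.antisymm (key t u ht hu h) (key u t hu ht h.symm)
    _ ≤ idealSum K s := (summable_idealSum hs).sum_le_tsum _ fun i _ => by positivity

theorem dedekindZeta_eq_idealSum {s : ℝ} (hs : 1 < s) :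
    dedekindZeta K s = (idealSum K s : ℂ) := by
  have h := (summable_idealSum (K := K) hs).hasSum.tsum_fiberwise (fun I => Ideal.absNorm I)
  rw [idealSum, ← h.tsum_eq, Complex.ofReal_tsum]
  unfold dedekindZeta LSeries
  refine tsum_congr fun n => ?_
  have h' : (∑' I : (fun I : Ideal (𝓞 K) => Ideal.absNorm I) ⁻¹' {n},
      (Ideal.absNorm I.1 : ℝ) ^ (-s)) =
        (Nat.card {I : Ideal (𝓞 K) // Ideal.absNorm I = n} : ℝ) * (n : ℝ) ^ (-s) := by
    rw [tsum_congr (g := fun _ => (n : ℝ) ^ (-s)) (fun I => by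
      have hI : Ideal.absNorm I.1 = n := I.2
      rw [hI]), tsum_const, nsmul_eq_mul]
    rfl
  rw [h', Complex.ofReal_mul, Complex.ofReal_natCast]
  rcases Nat.eq_zero_or_pos n with rfl | hn
  · simp [Real.zero_rpow (show (-s) ≠ 0 by linarith)]
  · rw [LSeries.term_of_ne_zero hn.ne', Complex.ofReal_cpow (Nat.cast_nonneg n),
      Complex.ofReal_neg, Complex.cpow_neg, div_eq_mul_inv]
    rfl

/-- The comparison function `log (1 / (s - 1))`. -/
def logPole (s : ℝ) : ℝ := -Real.log (s - 1)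

theorem tendsto_logPole : Tendsto logPole (𝓝[>] 1) atTop := by
  have h1 : Tendsto (fun s : ℝ => s - 1) (𝓝[>] 1) (𝓝[>] 0) := by
    refine tendsto_nhdsWithin_iff.2 ⟨?_, ?_⟩
    · have : Tendsto (fun s : ℝ => s - 1) (𝓝 1) (𝓝 (1 - 1)) := tendsto_id.sub_const 1
      simpa using this.mono_left nhdsWithin_le_nhds
    · exact eventually_nhdsWithin_of_forall fun s hs => by
        simpa using hs
  exact tendsto_neg_atBot_atTop.comp (Real.tendsto_log_nhdsGT_zero.comp h1)

variable (K) in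
/-- The primes of degree one have Dirichlet density one. -/
theorem tendsto_degreeOneSum_div :
    Tendsto (fun s => degreeOneSum K s / logPole s) (𝓝[>] 1) (𝓝 1) := by
  have hρ := dedekindZeta_residue_pos K
  have h1 : Tendsto (fun s : ℝ => (s - 1) * idealSum K s) (𝓝[>] 1)
      (𝓝 (dedekindZeta_residue K)) := by
    have := (Complex.continuous_re.tendsto _).comp (tendsto_sub_one_mul_dedekindZeta_nhdsGT K)
    simp only [Function.comp_def, Complex.ofReal_re] at this
    refine this.congr' (eventually_nhdsWithin_of_forall fun s hs => ?_)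
    rw [dedekindZeta_eq_idealSum hs]
    simp
  have h2 : Tendsto (fun s => Real.log (idealSum K s) - logPole s) (𝓝[>] 1)
      (𝓝 (Real.log (dedekindZeta_residue K))) := by
    refine ((Real.continuousAt_log hρ.ne').tendsto.comp h1).congr'
      (eventually_nhdsWithin_of_forall fun s hs => ?_)
    have hs' : (1 : ℝ) < s := hs
    simp only [Function.comp_apply, logPole]
    rw [Real.log_mul (by linarith) (zero_lt_one.trans_le (one_le_idealSum hs')).ne']
    ring
  have key : ∀ c : ℝ, Tendsto (fun s => (Real.log (idealSum K s) - logPole s + c) / logPole s + 1)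
      (𝓝[>] 1) (𝓝 1) := fun c => by
    simpa using ((h2.add_const c).div_atTop tendsto_logPole).add_const 1
  refine tendsto_of_tendsto_of_tendsto_of_le_of_le' (key (-(3 * errBound K))) (key (errBound K))
    ?_ ?_
  · filter_upwards [self_mem_nhdsWithin, tendsto_logPole.eventually_gt_atTop 0] with s hs hL
    rw [div_add_one hL.ne', div_le_div_iff_of_pos_right hL]
    linarith [log_idealSum_le (K := K) hs]
  · filter_upwards [self_mem_nhdsWithin, tendsto_logPole.eventually_gt_atTop 0] with s hs hL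
    rw [div_add_one hL.ne', div_le_div_iff_of_pos_right hL]
    linarith [degreeOneSum_le (K := K) hs]

end Fermat.Agent.Density

end
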