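/-
Frobenius elements of a Galois number field at unramified primes, and the number of primes of
degree one of an intermediate field in terms of fixed points of Frobenius.
-/
import Mathlib.NumberTheory.NumberField.Ideal.Basic
import Mathlib.RingTheory.Frobenius
import Mathlib.FieldTheory.Galois.IsGaloisGroup
import Mathlib.FieldTheory.Finite.Basic
import Mathlib.Data.ZMod.QuotientRing

set_option autoImplicit false
set_option maxHeartbeats 400000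

open NumberField
open scoped Pointwise

namespace Fermat.Agent.Density

section NatPrime

variable {R : Type*} [CommRing R]

theorem dvd_of_natCast_mem {Q : Ideal R} (hQ : Q ≠ ⊤) {ℓ n : ℕ} (hℓ : ℓ.Prime)
    (h1 : (ℓ : R) ∈ Q) (h2 : (n : R) ∈ Q) : ℓ ∣ n := by
  by_contra h
  obtain ⟨a, b, hab⟩ := Nat.isCoprime_iff_coprime.2 (hℓ.coprime_iff_not_dvd.2 h)
  apply hQ
  rw [Ideal.eq_top_iff_one]
  have h3 : (a : R) * (ℓ : R) + (b : R) * (n : R) = 1 := by exact_mod_cast congrArg (Int.cast : ℤ → R) hab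
  rw [← h3]
  exact Q.add_mem (Q.mul_mem_left _ h1) (Q.mul_mem_left _ h2)

theorem under_int_eq_span {Q : Ideal R} (hQ : Q ≠ ⊤) {ℓ : ℕ} (hℓ : ℓ.Prime) (h1 : (ℓ : R) ∈ Q) :
    Q.under ℤ = Ideal.span {(ℓ : ℤ)} := by
  have hp : Prime (ℓ : ℤ) := Nat.prime_iff_prime_int.mp hℓ
  have hmax : (Ideal.span {(ℓ : ℤ)}).IsMaximal :=
    ((Ideal.span_singleton_prime hp.ne_zero).2 hp).isMaximal (by simpa using hp.ne_zero)
  refine (hmax.eq_of_le ?_ ?_).symm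
  · intro h
    apply hQ
    rw [Ideal.eq_top_iff_one] at h ⊢
    simpa [Ideal.mem_comap] using h
  · rw [Ideal.span_singleton_le_iff_mem]
    simpa [Ideal.mem_comap] using h1

theorem natCard_quotient_under_int {Q : Ideal R} (hQ : Q ≠ ⊤) {ℓ : ℕ} (hℓ : ℓ.Prime)
    (h1 : (ℓ : R) ∈ Q) : Nat.card (ℤ ⧸ Q.under ℤ) = ℓ := by
  rw [under_int_eq_span hQ hℓ h1, Nat.card_congr (Int.quotientSpanNatEquivZMod ℓ).toEquiv,
    Nat.card_zmod]

end NatPrime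

variable {F : Type*} [Field F] [NumberField F]

theorem ne_bot_of_natCast_mem {Q : Ideal (𝓞 F)} {ℓ : ℕ} (hℓ : ℓ.Prime)
    (h : (ℓ : 𝓞 F) ∈ Q) : Q ≠ ⊥ := by
  rintro rfl
  exact hℓ.ne_zero (by exact_mod_cast (Ideal.mem_bot.1 h))

section Good

variable (K : Type*) [Field K] [Algebra K F]

omit [NumberField F] in
theorem coe_smul_ringOfIntegers (φ : F ≃ₐ[K] F) (x : 𝓞 F) : ((φ • x : 𝓞 F) : F) = φ (x : F) :=
  rfl

theorem exists_smul_ne {φ : F ≃ₐ[K] F} (hφ : φ ≠ 1) : ∃ x : 𝓞 F, φ • x ≠ x := by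
  by_contra h
  push Not at h
  refine hφ (AlgEquiv.ext fun z => ?_)
  obtain ⟨a, b, -, rfl⟩ := IsFractionRing.div_surjective (A := 𝓞 F) z
  have ha := congrArg (fun t : 𝓞 F => (t : F)) (h a)
  have hb := congrArg (fun t : 𝓞 F => (t : F)) (h b)
  simp only [coe_smul_ringOfIntegers] at ha hb
  show φ ((a : F) / (b : F)) = (a : F) / (b : F)
  rw [map_div₀, ha, hb]

variable (F) in
/-- All inertia groups above `ℓ` in `Aut(F/K)` are trivial. -/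
def IsGoodPrime (ℓ : ℕ) : Prop :=
  ∀ Q : Ideal (𝓞 F), Q.IsPrime → (ℓ : 𝓞 F) ∈ Q → Q.inertia (F ≃ₐ[K] F) = ⊥

variable (F) in
theorem exists_forall_isGoodPrime [FiniteDimensional K F] :
    ∃ m : ℕ, m ≠ 0 ∧ ∀ ℓ : ℕ, ℓ.Prime → ¬ ℓ ∣ m → IsGoodPrime F K ℓ := by
  classical
  choose! α hα using fun (φ : F ≃ₐ[K] F) (h : φ ≠ 1) => exists_smul_ne K h
  set D : 𝓞 F := ∏ φ ∈ Finset.univ.erase (1 : F ≃ₐ[K] F), (φ • α φ - α φ)
  have hD : D ≠ 0 := Finset.prod_ne_zero_iff.2 fun φ hφ =>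
    sub_ne_zero.2 (hα φ (Finset.ne_of_mem_erase hφ))
  refine ⟨Ideal.absNorm (Ideal.span {D}), ?_, fun ℓ hℓ hdvd Q hQ hmem => ?_⟩
  · rwa [Ne, Ideal.absNorm_eq_zero_iff, Ideal.span_singleton_eq_bot]
  rw [Subgroup.eq_bot_iff_forall]
  intro φ hφ
  by_contra hne
  apply hdvd
  refine dvd_of_natCast_mem hQ.ne_top hℓ hmem ?_
  have hDQ : D ∈ Q := Q.mem_of_dvd (Finset.dvd_prod_of_mem _
    (Finset.mem_erase.2 ⟨hne, Finset.mem_univ φ⟩)) (hφ (α φ))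
  exact (Ideal.span_singleton_le_iff_mem _).2 hDQ (Ideal.absNorm_mem _)

theorem eq_of_smul_sub_smul_mem {ℓ : ℕ} (hgood : IsGoodPrime F K ℓ) {Q : Ideal (𝓞 F)}
    (hQ : Q.IsPrime) (hmem : (ℓ : 𝓞 F) ∈ Q) {a b : F ≃ₐ[K] F}
    (h : ∀ x : 𝓞 F, a • x - b • x ∈ Q) : a = b := by
  have : a * b⁻¹ ∈ Q.inertia (F ≃ₐ[K] F) := fun x => by
    simpa [mul_smul] using h (b⁻¹ • x)
  rw [hgood Q hQ hmem, Subgroup.mem_bot] at this
  exact mul_inv_eq_one.1 this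

/-- `φ` is a Frobenius for the prime number `ℓ` at `Q`. -/
def IsFrob (ℓ : ℕ) (φ : F ≃ₐ[K] F) (Q : Ideal (𝓞 F)) : Prop :=
  ∀ x : 𝓞 F, φ • x - x ^ ℓ ∈ Q

variable {K}

theorem IsFrob.conj {ℓ : ℕ} {φ : F ≃ₐ[K] F} {Q : Ideal (𝓞 F)} (h : IsFrob K ℓ φ Q)
    (g : F ≃ₐ[K] F) : IsFrob K ℓ (g * φ * g⁻¹) (g • Q) := fun x => by
  have := (Ideal.smul_mem_pointwise_smul_iff (a := g)).2 (h (g⁻¹ • x))
  simpa [smul_sub, mul_smul, smul_pow'] using this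

theorem IsFrob.unique {ℓ : ℕ} (hgood : IsGoodPrime F K ℓ) {Q : Ideal (𝓞 F)} (hQ : Q.IsPrime)
    (hmem : (ℓ : 𝓞 F) ∈ Q) {φ ψ : F ≃ₐ[K] F} (h : IsFrob K ℓ φ Q) (h' : IsFrob K ℓ ψ Q) :
    φ = ψ :=
  eq_of_smul_sub_smul_mem K hgood hQ hmem fun x => by simpa using Q.sub_mem (h x) (h' x)

theorem natCast_mem_smul {ℓ : ℕ} {Q : Ideal (𝓞 F)} (hmem : (ℓ : 𝓞 F) ∈ Q) (g : F ≃ₐ[K] F) :
    (ℓ : 𝓞 F) ∈ g • Q := by
  have := (Ideal.smul_mem_pointwise_smul_iff (a := g)).2 hmem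
  rwa [show g • (ℓ : 𝓞 F) = (ℓ : 𝓞 F) from
    map_natCast (MulSemiringAction.toRingHom (F ≃ₐ[K] F) (𝓞 F) g) ℓ] at this

end Good

section Galois

variable [IsGalois ℚ F]

theorem exists_isFrob {ℓ : ℕ} (hℓ : ℓ.Prime) {Q : Ideal (𝓞 F)} (hQ : Q.IsPrime)
    (hmem : (ℓ : 𝓞 F) ∈ Q) : ∃ φ : F ≃ₐ[ℚ] F, IsFrob ℚ ℓ φ Q := by
  have : Q.IsMaximal := hQ.isMaximal (ne_bot_of_natCast_mem hℓ hmem)
  obtain ⟨φ, hφ⟩ := IsArithFrobAt.exists_of_isInvariant ℤ (F ≃ₐ[ℚ] F) Q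
  refine ⟨φ, fun x => ?_⟩
  have := hφ x
  rwa [natCard_quotient_under_int hQ.ne_top hℓ hmem] at this

/-- The stabiliser of `Q` is generated by the Frobenius. -/
theorem exists_pow_eq_of_smul_eq {ℓ : ℕ} (hℓ : ℓ.Prime) (hgood : IsGoodPrime F ℚ ℓ)
    {Q : Ideal (𝓞 F)} (hQ : Q.IsPrime) (hmem : (ℓ : 𝓞 F) ∈ Q) {φ d : F ≃ₐ[ℚ] F}
    (hφ : IsFrob ℚ ℓ φ Q) (hd : d • Q = Q) : ∃ i : ℕ, φ ^ i = d := by
  have hmax : Q.IsMaximal := hQ.isMaximal (ne_bot_of_natCast_mem hℓ hmem)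
  letI := Ideal.Quotient.field Q
  have : Fact ℓ.Prime := ⟨hℓ⟩
  have hchar : CharP (𝓞 F ⧸ Q) ℓ := by
    refine ⟨fun n => ?_⟩
    rw [← map_natCast (Ideal.Quotient.mk Q) n, Ideal.Quotient.eq_zero_iff_mem]
    refine ⟨fun h => dvd_of_natCast_mem hQ.ne_top hℓ hmem h, ?_⟩
    rintro ⟨c, rfl⟩
    rw [Nat.cast_mul]
    exact Q.mul_mem_right _ hmem
  letI := ZMod.algebra (𝓞 F ⧸ Q) ℓ
  have hle : Q ≤ Q.comap (MulSemiringAction.toRingHom (F ≃ₐ[ℚ] F) (𝓞 F) d) := fun x hx => by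
    rw [Ideal.mem_comap]
    show d • x ∈ Q
    rw [← hd]
    exact (Ideal.smul_mem_pointwise_smul_iff (a := d)).2 hx
  let f : 𝓞 F ⧸ Q →+* 𝓞 F ⧸ Q := Ideal.quotientMap Q _ hle
  have hc : ∀ r : ZMod ℓ, f (algebraMap (ZMod ℓ) (𝓞 F ⧸ Q) r) = algebraMap (ZMod ℓ) (𝓞 F ⧸ Q) r :=
    fun r => DFunLike.congr_fun
      (RingHom.ext_zmod (f.comp (algebraMap (ZMod ℓ) (𝓞 F ⧸ Q))) (algebraMap (ZMod ℓ) (𝓞 F ⧸ Q))) r
  let f' : (𝓞 F ⧸ Q) →ₐ[ZMod ℓ] (𝓞 F ⧸ Q) := { f with commutes' := hc }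
  have hbij : Function.Bijective f' := Finite.injective_iff_bijective.1 f'.toRingHom.injective
  obtain ⟨i, hi⟩ := (FiniteField.bijective_frobeniusAlgEquivOfAlgebraic_pow (ZMod ℓ)
    (𝓞 F ⧸ Q)).2 (AlgEquiv.ofBijective f' hbij)
  refine ⟨i, eq_of_smul_sub_smul_mem ℚ hgood hQ hmem fun x => ?_⟩
  have h1 : Ideal.Quotient.mk Q (d • x) = Ideal.Quotient.mk Q x ^ ℓ ^ (i : ℕ) := by
    have := congrArg (fun e : (𝓞 F ⧸ Q) ≃ₐ[ZMod ℓ] (𝓞 F ⧸ Q) => e (Ideal.Quotient.mk Q x)) hi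
    simp only [AlgEquiv.coe_pow, FiniteField.coe_frobeniusAlgEquivOfAlgebraic_iterate,
      ZMod.card, AlgEquiv.coe_ofBijective] at this
    exact this.symm
  have h2 : ∀ (j : ℕ) (y : 𝓞 F),
      Ideal.Quotient.mk Q (φ ^ j • y) = Ideal.Quotient.mk Q y ^ ℓ ^ j := by
    intro j
    induction j with
    | zero => intro y; simp
    | succ j ih =>
      intro y
      rw [pow_succ, mul_smul, ih, show Ideal.Quotient.mk Q (φ • y) = Ideal.Quotient.mk Q y ^ ℓ by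
        rw [← map_pow, Ideal.Quotient.eq]; exact hφ y, ← pow_mul, ← pow_succ']
  rw [← Ideal.Quotient.eq_zero_iff_mem, map_sub, h1, h2, sub_self]

variable {K : Type*} [Field K] [NumberField K] [Algebra K F]

omit [IsGalois ℚ F] in
/-- A prime whose Frobenius fixes `K` lies above a prime of degree one of `K`. -/
theorem absNorm_under_eq {ℓ : ℕ} (hℓ : ℓ.Prime) {Q : Ideal (𝓞 F)} (hQ : Q.IsPrime)
    (hmem : (ℓ : 𝓞 F) ∈ Q) {φ : F ≃ₐ[ℚ] F} (hφ : IsFrob ℚ ℓ φ Q)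
    (hfix : ∀ x : K, φ (algebraMap K F x) = algebraMap K F x) :
    Ideal.absNorm (Q.under (𝓞 K)) = ℓ := by
  classical
  set P := Q.under (𝓞 K) with hP
  have hPmem : (ℓ : 𝓞 K) ∈ P := by simpa [hP, Ideal.mem_comap] using hmem
  have hPprime : P.IsPrime := hQ.comap _
  have hmax : P.IsMaximal := hPprime.isMaximal (ne_bot_of_natCast_mem hℓ hPmem)
  letI := Ideal.Quotient.field P
  obtain ⟨p, n, hn, hpmem, hp, hN⟩ := Ideal.exists_prime_and_absNorm_eq_pow P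
  obtain rfl : p = ℓ :=
    ((Nat.prime_dvd_prime_iff_eq hp hℓ).1 (dvd_of_natCast_mem hPprime.ne_top hp hpmem hPmem))
  have hroot : ∀ y : 𝓞 K ⧸ P, y ^ p = y := by
    intro y
    obtain ⟨x, rfl⟩ := Ideal.Quotient.mk_surjective y
    rw [← map_pow, eq_comm, Ideal.Quotient.eq, hP, Ideal.mem_comap, map_sub, map_pow]
    have hx : φ • algebraMap (𝓞 K) (𝓞 F) x = algebraMap (𝓞 K) (𝓞 F) x :=
      RingOfIntegers.ext (hfix (x : K))
    have := hφ (algebraMap (𝓞 K) (𝓞 F) x)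
    rwa [hx] at this
  cases nonempty_fintype (𝓞 K ⧸ P)
  have hdeg := FiniteField.X_pow_card_sub_X_natDegree_eq (𝓞 K ⧸ P) hℓ.one_lt
  have hne := FiniteField.X_pow_card_sub_X_ne_zero (𝓞 K ⧸ P) hℓ.one_lt
  have hcard : Nat.card (𝓞 K ⧸ P) ≤ p := by
    rw [Nat.card_eq_fintype_card, ← Finset.card_univ, ← hdeg]
    refine Polynomial.card_le_degree_of_subset_roots fun y _ => ?_
    rw [Polynomial.mem_roots hne]
    simp [hroot y]
  rw [← Submodule.cardQuot_apply, ← Ideal.absNorm_apply, hN] at hcard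
  have h1 : n ≤ 1 := (Nat.pow_le_pow_iff_right hℓ.one_lt).1 (by simpa using hcard)
  rw [hN, show n = 1 by omega, pow_one]

variable (E : IntermediateField ℚ F)

/-- A prime above a prime of degree one of `E` has its Frobenius in `Gal(F/E)`. -/
theorem exists_isFrob_fixing {ℓ : ℕ} {P : Ideal (𝓞 E)} (hN : Ideal.absNorm P = ℓ) (hℓ : ℓ.Prime)
    {Q : Ideal (𝓞 F)} (hQ : Q.IsPrime) (hover : Q.under (𝓞 E) = P) :
    ∃ φ : F ≃ₐ[ℚ] F, φ ∈ E.fixingSubgroup ∧ IsFrob ℚ ℓ φ Q := by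
  have hmem : (ℓ : 𝓞 F) ∈ Q := by
    have h : (ℓ : 𝓞 E) ∈ Q.under (𝓞 E) := by rw [hover, ← hN]; exact Ideal.absNorm_mem P
    simpa [Ideal.mem_comap] using h
  have : Q.IsMaximal := hQ.isMaximal (ne_bot_of_natCast_mem hℓ hmem)
  obtain ⟨h, hh⟩ := IsArithFrobAt.exists_of_isInvariant (𝓞 E) (F ≃ₐ[E] F) Q
  refine ⟨h.restrictScalars ℚ, ?_, fun x => ?_⟩
  · rw [IntermediateField.mem_fixingSubgroup_iff]
    exact fun x hx => h.commutes ⟨x, hx⟩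
  · have := hh x
    rwa [hover, ← Submodule.cardQuot_apply, ← Ideal.absNorm_apply, hN] at this

omit [IsGalois ℚ F] in
theorem under_smul_eq_of_mem_fixingSubgroup {h : F ≃ₐ[ℚ] F} (hh : h ∈ E.fixingSubgroup)
    (Q : Ideal (𝓞 F)) : (h • Q).under (𝓞 E) = Q.under (𝓞 E) := by
  ext x
  rw [Ideal.mem_comap, Ideal.mem_comap, Ideal.mem_pointwise_smul_iff_inv_smul_mem]
  have : h⁻¹ • algebraMap (𝓞 E) (𝓞 F) x = algebraMap (𝓞 E) (𝓞 F) x :=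
    RingOfIntegers.ext ((IntermediateField.mem_fixingSubgroup_iff _ _).1
      (E.fixingSubgroup.inv_mem hh) _ (x : E).2)
  rw [this]

/-- The number of conjugates of the Frobenius lying in `Gal(F/E)` is `|Gal(F/E)|` times the
number of primes of degree one of `E` above `ℓ`. -/
theorem card_conj_mem_fixingSubgroup {ℓ : ℕ} (hℓ : ℓ.Prime) (hgood : IsGoodPrime F ℚ ℓ)
    {Q : Ideal (𝓞 F)} (hQ : Q.IsPrime) (hmem : (ℓ : 𝓞 F) ∈ Q) {φ : F ≃ₐ[ℚ] F}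
    (hφ : IsFrob ℚ ℓ φ Q) :
    Nat.card {x : F ≃ₐ[ℚ] F // x * φ * x⁻¹ ∈ E.fixingSubgroup} =
      Nat.card E.fixingSubgroup *
        Nat.card {P : Ideal (𝓞 E) // P.IsPrime ∧ Ideal.absNorm P = ℓ} := by
  classical
  set H := E.fixingSubgroup with hH
  have hsurj : ∀ P : {P : Ideal (𝓞 E) // P.IsPrime ∧ Ideal.absNorm P = ℓ},
      ∃ x : F ≃ₐ[ℚ] F, x * φ * x⁻¹ ∈ H ∧ (x • Q).under (𝓞 E) = P.1 := by
    rintro ⟨P, hP, hN⟩
    have := hP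
    obtain ⟨Q', -, hQ', hover⟩ := Ideal.exists_ideal_over_prime_of_isIntegral (S := 𝓞 F) P ⊥
      (by simp [Ideal.comap_bot_of_injective _ (RingOfIntegers.algebraMap.injective E F)])
    have hmem' : (ℓ : 𝓞 F) ∈ Q' := by
      have h : (ℓ : 𝓞 E) ∈ Ideal.comap (algebraMap (𝓞 E) (𝓞 F)) Q' := by
        rw [hover, ← hN]; exact Ideal.absNorm_mem P
      simpa [Ideal.mem_comap] using h
    obtain ⟨x, hx⟩ := Algebra.IsInvariant.exists_smul_of_under_eq ℤ (𝓞 F) (F ≃ₐ[ℚ] F) Q Q'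
      (by rw [under_int_eq_span hQ.ne_top hℓ hmem, under_int_eq_span hQ'.ne_top hℓ hmem'])
    obtain ⟨ψ, hψH, hψ⟩ := exists_isFrob_fixing E hN hℓ hQ' hover
    refine ⟨x, ?_, hx ▸ hover⟩
    subst hx
    have heq : x * φ * x⁻¹ = ψ := IsFrob.unique hgood hQ' hmem' (hφ.conj x) hψ
    rw [heq]
    exact hψH
  choose x hxH hxP using hsurj
  rw [← Nat.card_prod]
  refine (Nat.card_congr (Equiv.ofBijective
    (fun p : H × {P : Ideal (𝓞 E) // P.IsPrime ∧ Ideal.absNorm P = ℓ} =>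
      (⟨(p.1 : F ≃ₐ[ℚ] F) * x p.2, ?_⟩ : {x : F ≃ₐ[ℚ] F // x * φ * x⁻¹ ∈ H})) ⟨?_, ?_⟩)).symm
  · have : (p.1 : F ≃ₐ[ℚ] F) * x p.2 * φ * ((p.1 : F ≃ₐ[ℚ] F) * x p.2)⁻¹ =
        p.1 * (x p.2 * φ * (x p.2)⁻¹) * (p.1 : F ≃ₐ[ℚ] F)⁻¹ := by group
    rw [this]
    exact H.mul_mem (H.mul_mem p.1.2 (hxH p.2)) (H.inv_mem p.1.2)
  · rintro ⟨h, P⟩ ⟨h', P'⟩ heq
    simp only [Subtype.mk.injEq] at heq
    have hPP : P = P' := by
      apply Subtype.ext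
      rw [← hxP P, ← hxP P', ← under_smul_eq_of_mem_fixingSubgroup E h.2 (x P • Q),
        ← under_smul_eq_of_mem_fixingSubgroup E h'.2 (x P' • Q), ← mul_smul, ← mul_smul, heq]
    subst hPP
    exact Prod.ext (Subtype.ext (mul_right_cancel heq)) rfl
  · rintro ⟨y, hy⟩
    have hy' : (y • Q).IsPrime := inferInstance
    have hN : Ideal.absNorm ((y • Q).under (𝓞 E)) = ℓ :=
      absNorm_under_eq hℓ hy' (natCast_mem_smul hmem y) (hφ.conj y)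
        (fun t => (IntermediateField.mem_fixingSubgroup_iff _ _).1 hy _ t.2)
    set P : {P : Ideal (𝓞 E) // P.IsPrime ∧ Ideal.absNorm P = ℓ} :=
      ⟨_, hy'.comap _, hN⟩
    obtain ⟨h', hh'⟩ := Algebra.IsInvariant.exists_smul_of_under_eq (𝓞 E) (𝓞 F) (F ≃ₐ[E] F)
      (x P • Q) (y • Q) (hxP P)
    set h : F ≃ₐ[ℚ] F := h'.restrictScalars ℚ with hdef
    have hhH : h ∈ H := (IntermediateField.mem_fixingSubgroup_iff _ _).2
      fun t ht => h'.commutes ⟨t, ht⟩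
    have hh : y • Q = h • (x P • Q) := hh'
    have hd : (y⁻¹ * (h * x P)) • Q = Q := by
      rw [mul_smul, mul_smul, ← hh, inv_smul_smul]
    obtain ⟨i, hi⟩ := exists_pow_eq_of_smul_eq hℓ hgood hQ hmem hφ hd
    have hxy : h * x P = y * φ ^ i := by rw [hi]; group
    refine ⟨(⟨(y * φ ^ i * y⁻¹)⁻¹ * h, H.mul_mem (H.inv_mem ?_) hhH⟩, P), ?_⟩
    · rw [← conj_pow]
      exact H.pow_mem hy i
    · apply Subtype.ext
      show (y * φ ^ i * y⁻¹)⁻¹ * h * x P = y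
      rw [mul_assoc, hxy]
      group

end Galois

end Fermat.Agent.Density
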