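/-
Frobenius' density theorem for a finite Galois extension `F/ℚ`: every cyclic subgroup of
`Gal(F/ℚ)` is generated by Frobenius elements at infinitely many unramified primes.
-/
import Fermat.Agent.Density.Analytic
import Fermat.Agent.Density.Splitting
import Mathlib.NumberTheory.ArithmeticFunction.Misc
import Mathlib.GroupTheory.SpecificGroups.Cyclic

set_option autoImplicit false
set_option maxHeartbeats 400000

open NumberField Filter Topology

noncomputable section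

namespace Fermat.Agent.Density

/-- `∑ a(ℓ) ℓ^(-s) ~ c log (1 / (s - 1))` for a bounded `a`. -/
def HasDensity (a : Nat.Primes → ℝ) (c : ℝ) : Prop :=
  (∃ B : ℝ, ∀ ℓ, |a ℓ| ≤ B) ∧
    Tendsto (fun s : ℝ => (∑' ℓ : Nat.Primes, a ℓ * (ℓ : ℝ) ^ (-s)) / logPole s) (𝓝[>] 1) (𝓝 c)

theorem summable_of_bounded {a : Nat.Primes → ℝ} (h : ∃ B : ℝ, ∀ ℓ, |a ℓ| ≤ B) {s : ℝ}
    (hs : 1 < s) : Summable fun ℓ : Nat.Primes => a ℓ * (ℓ : ℝ) ^ (-s) := by
  obtain ⟨B, hB⟩ := h
  refine Summable.of_norm_bounded ((Nat.Primes.summable_rpow.2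
    (show -s < -1 by linarith)).mul_left B) fun ℓ => ?_
  rw [Real.norm_eq_abs, abs_mul, abs_of_nonneg (show (0 : ℝ) ≤ (ℓ : ℝ) ^ (-s) by positivity)]
  exact mul_le_mul_of_nonneg_right (hB ℓ) (by positivity)

theorem hasDensity_zero : HasDensity (fun _ => 0) 0 :=
  ⟨⟨0, fun _ => by simp⟩, by simp⟩

theorem HasDensity.add {a b : Nat.Primes → ℝ} {c d : ℝ} (ha : HasDensity a c)
    (hb : HasDensity b d) : HasDensity (fun ℓ => a ℓ + b ℓ) (c + d) := by
  refine ⟨?_, (ha.2.add hb.2).congr' (eventually_nhdsWithin_of_forall fun s hs => ?_)⟩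
  · obtain ⟨⟨B, hB⟩, -⟩ := ha
    obtain ⟨⟨B', hB'⟩, -⟩ := hb
    exact ⟨B + B', fun ℓ => (abs_add_le _ _).trans (add_le_add (hB ℓ) (hB' ℓ))⟩
  · rw [← add_div, ← (summable_of_bounded ha.1 hs).tsum_add (summable_of_bounded hb.1 hs)]
    simp_rw [add_mul]

theorem HasDensity.const_mul {a : Nat.Primes → ℝ} {c : ℝ} (ha : HasDensity a c) (r : ℝ) :
    HasDensity (fun ℓ => r * a ℓ) (r * c) := by
  refine ⟨?_, (ha.2.const_mul r).congr fun s => ?_⟩
  · obtain ⟨⟨B, hB⟩, -⟩ := ha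
    exact ⟨|r| * B, fun ℓ => by rw [abs_mul]; exact mul_le_mul_of_nonneg_left (hB ℓ) (abs_nonneg r)⟩
  · simp_rw [mul_assoc, tsum_mul_left, mul_div_assoc]

theorem HasDensity.sub {a b : Nat.Primes → ℝ} {c d : ℝ} (ha : HasDensity a c)
    (hb : HasDensity b d) : HasDensity (fun ℓ => a ℓ - b ℓ) (c - d) := by
  simpa [sub_eq_add_neg] using ha.add (hb.const_mul (-1))

theorem hasDensity_finsetSum {ι : Type*} (t : Finset ι) {a : ι → Nat.Primes → ℝ} {c : ι → ℝ}
    (h : ∀ i ∈ t, HasDensity (a i) (c i)) :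
    HasDensity (fun ℓ => ∑ i ∈ t, a i ℓ) (∑ i ∈ t, c i) := by
  classical
  induction t using Finset.induction_on with
  | empty => simpa using hasDensity_zero
  | insert i t hi ih =>
    simp only [Finset.sum_insert hi]
    exact (h i (Finset.mem_insert_self i t)).add
      (ih fun j hj => h j (Finset.mem_insert_of_mem hj))

theorem hasDensity_of_finite_support {a : Nat.Primes → ℝ} (h : {ℓ | a ℓ ≠ 0}.Finite) :
    HasDensity a 0 := by
  refine ⟨⟨∑ ℓ ∈ h.toFinset, |a ℓ|, fun ℓ => ?_⟩, ?_⟩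
  · by_cases hℓ : a ℓ = 0
    · rw [hℓ, abs_zero]
      exact Finset.sum_nonneg fun i _ => abs_nonneg _
    · exact Finset.single_le_sum (f := fun i => |a i|) (fun i _ => abs_nonneg _) (by simpa using hℓ)
  · have h1 : (fun s : ℝ => ∑' ℓ : Nat.Primes, a ℓ * (ℓ : ℝ) ^ (-s)) =
        fun s => ∑ ℓ ∈ h.toFinset, a ℓ * (ℓ : ℝ) ^ (-s) := by
      funext s
      refine tsum_eq_sum fun ℓ hℓ => ?_
      have : a ℓ = 0 := by simpa using hℓ
      simp [this]
    have h2 : Continuous fun s : ℝ => ∑ ℓ ∈ h.toFinset, a ℓ * (ℓ : ℝ) ^ (-s) :=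
      continuous_finsetSum _ fun ℓ _ => continuous_const.mul
        (Continuous.rpow continuous_const continuous_neg fun _ =>
          Or.inl (by exact_mod_cast ℓ.2.ne_zero))
    rw [← h1] at h2
    exact ((h2.tendsto 1).mono_left nhdsWithin_le_nhds).div_atTop tendsto_logPole

theorem HasDensity.congr_cofinite {a b : Nat.Primes → ℝ} {c : ℝ} (ha : HasDensity a c)
    (h : {ℓ | a ℓ ≠ b ℓ}.Finite) : HasDensity b c := by
  have h0 : HasDensity (fun ℓ => b ℓ - a ℓ) 0 :=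
    hasDensity_of_finite_support (h.subset fun ℓ hℓ => fun he => hℓ (by simp [he]))
  simpa using ha.add h0

theorem hasDensity_numDegreeOne (K : Type*) [Field K] [NumberField K] :
    HasDensity (fun ℓ => (numDegreeOne K ℓ : ℝ)) 1 := by
  refine ⟨⟨Module.finrank ℚ K, fun ℓ => ?_⟩, tendsto_degreeOneSum_div K⟩
  rw [Nat.abs_cast]
  exact_mod_cast numDegreeOne_le ℓ

section Cyclic

variable {G : Type*} [Group G] [Finite G]

theorem mem_zpowers_and_orderOf_eq_iff (g y : G) {d : ℕ} (hd : d ∣ orderOf g) :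
    y ∈ Subgroup.zpowers g ∧ orderOf y = d ↔
      Subgroup.zpowers y = Subgroup.zpowers (g ^ (orderOf g / d)) := by
  have hn := orderOf_pos g
  have hord : orderOf (g ^ (orderOf g / d)) = d := by
    rw [orderOf_pow_of_dvd (Nat.ne_of_gt (Nat.div_pos (Nat.le_of_dvd hn hd)
      (Nat.pos_of_dvd_of_pos hd hn))) (Nat.div_dvd_of_dvd hd), Nat.div_div_self hd hn.ne']
  constructor
  · rintro ⟨hy, hoy⟩
    obtain ⟨k, rfl⟩ := mem_powers_iff_mem_zpowers.2 hy
    dsimp only at hoy ⊢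
    refine Subgroup.eq_of_le_of_card_ge (Subgroup.zpowers_le.2 ?_) ?_
    · have h1 : orderOf g ∣ k * d := by
        rw [orderOf_dvd_iff_pow_eq_one, pow_mul, ← hoy, pow_orderOf_eq_one]
      obtain ⟨j, hj⟩ : orderOf g / d ∣ k := by
        refine Nat.dvd_of_mul_dvd_mul_right (Nat.pos_of_dvd_of_pos hd hn) ?_
        rwa [Nat.div_mul_cancel hd]
      rw [hj, pow_mul]
      exact Subgroup.npow_mem_zpowers _ _
    · rw [Nat.card_zpowers, Nat.card_zpowers, hord, hoy]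
  · intro h
    refine ⟨?_, ?_⟩
    · have : y ∈ Subgroup.zpowers (g ^ (orderOf g / d)) := h ▸ Subgroup.mem_zpowers y
      exact Subgroup.zpowers_le.2 (Subgroup.npow_mem_zpowers g _) this
    · rw [← Nat.card_zpowers, h, Nat.card_zpowers, hord]

theorem card_conj_mem_zpowers (φ g : G) :
    Nat.card {x : G // x * φ * x⁻¹ ∈ Subgroup.zpowers g} = ∑ d ∈ (orderOf g).divisors,
      Nat.card {x : G // Subgroup.zpowers (x * φ * x⁻¹) =
        Subgroup.zpowers (g ^ (orderOf g / d))} := by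
  classical
  cases nonempty_fintype G
  simp only [Nat.card_eq_fintype_card, Fintype.card_subtype]
  rw [Finset.card_eq_sum_card_fiberwise (f := fun x => orderOf (x * φ * x⁻¹))
    (t := (orderOf g).divisors)]
  · refine Finset.sum_congr rfl fun d hd => ?_
    congr 1
    ext x
    simp only [Finset.mem_filter, Finset.mem_univ, true_and]
    exact mem_zpowers_and_orderOf_eq_iff g _ (Nat.mem_divisors.1 hd).1
  · intro x hx
    simp only [Finset.mem_coe, Finset.mem_filter, Finset.mem_univ, true_and] at hx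
    exact Nat.mem_divisors.2 ⟨orderOf_dvd_of_mem_zpowers hx, (orderOf_pos g).ne'⟩

theorem card_zpowers_eq (z : G) :
    Nat.card {y : G // Subgroup.zpowers z = Subgroup.zpowers y} = (orderOf z).totient := by
  classical
  cases nonempty_fintype G
  rw [Nat.card_eq_fintype_card, Fintype.card_subtype]
  have h := IsCyclic.card_orderOf_eq_totient (α := Subgroup.zpowers z) (d := orderOf z)
    (by rw [← Nat.card_eq_fintype_card, Nat.card_zpowers])
  rw [← h]
  refine (Finset.card_bij (fun (y : Subgroup.zpowers z) _ => (y : G)) (fun y hy => ?_)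
    (fun a _ b _ hab => by exact Subtype.ext hab) (fun y hy => ?_)).symm
  · simp only [Finset.mem_filter, Finset.mem_univ, true_and] at hy ⊢
    rw [← Subgroup.orderOf_coe] at hy
    exact (Subgroup.eq_of_le_of_card_ge (Subgroup.zpowers_le.2 y.2)
      (by rw [Nat.card_zpowers, Nat.card_zpowers, hy])).symm
  · simp only [Finset.mem_filter, Finset.mem_univ, true_and] at hy
    refine ⟨⟨y, hy ▸ Subgroup.mem_zpowers y⟩, ?_, rfl⟩
    simp only [Finset.mem_filter, Finset.mem_univ, true_and]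
    rw [← Subgroup.orderOf_coe, ← Nat.card_zpowers, ← hy, Nat.card_zpowers]

end Cyclic

variable (F : Type*) [Field F] [NumberField F]

omit [NumberField F] in
theorem finite_setOf_primes_dvd {m : ℕ} (hm : m ≠ 0) : {ℓ : Nat.Primes | (ℓ : ℕ) ∣ m}.Finite :=
  ((Nat.divisors m).finite_toSet.preimage Subtype.val_injective.injOn).subset fun ℓ hℓ =>
    Nat.mem_divisors.2 ⟨hℓ, hm⟩

theorem exists_isPrime_natCast_mem {ℓ : ℕ} (hℓ : ℓ.Prime) :
    ∃ Q : Ideal (𝓞 F), Q.IsPrime ∧ (ℓ : 𝓞 F) ∈ Q := by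
  have hne : Ideal.span {(ℓ : 𝓞 F)} ≠ ⊤ := fun h => by
    have := congrArg Ideal.absNorm h
    rw [Ideal.absNorm_span_natCast, Ideal.absNorm_top, RingOfIntegers.rank] at this
    have h2 := Module.finrank_pos (R := ℚ) (M := F)
    exact hℓ.ne_one ((pow_eq_one_iff.1 this).resolve_right (Nat.ne_of_gt h2))
  obtain ⟨Q, hQ, hle⟩ := Ideal.exists_le_maximal _ hne
  exact ⟨Q, hQ.isPrime, (Ideal.span_singleton_le_iff_mem _).1 hle⟩

variable [IsGalois ℚ F]

/-- `φ ℓ` is, for all but finitely many `ℓ`, a Frobenius element at a prime above `ℓ`. -/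
def IsFrobChoice (φ : Nat.Primes → (F ≃ₐ[ℚ] F)) : Prop :=
  {ℓ : Nat.Primes | ¬∃ Q : Ideal (𝓞 F), Q.IsPrime ∧ (ℓ : 𝓞 F) ∈ Q ∧
    IsFrob ℚ ℓ (φ ℓ) Q}.Finite

variable {F}

/-- The number of conjugates of the Frobenius generating a given cyclic subgroup has density
`φ(n)`, `n` the order of the subgroup. -/
theorem hasDensity_generators {φ : Nat.Primes → (F ≃ₐ[ℚ] F)} (hchoice : IsFrobChoice F φ)
    (g₀ : F ≃ₐ[ℚ] F) :
    HasDensity (fun ℓ => (Nat.card {x : F ≃ₐ[ℚ] F //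
      Subgroup.zpowers (x * φ ℓ * x⁻¹) = Subgroup.zpowers g₀} : ℝ)) (orderOf g₀).totient := by
  classical
  obtain ⟨m, hm, hgood₀⟩ := exists_forall_isGoodPrime F ℚ
  set bad : Set Nat.Primes := {ℓ : Nat.Primes | ¬∃ Q : Ideal (𝓞 F), Q.IsPrime ∧
    (ℓ : 𝓞 F) ∈ Q ∧ IsFrob ℚ ℓ (φ ℓ) Q} ∪ {ℓ : Nat.Primes | (ℓ : ℕ) ∣ m} with hbad'
  have hbad : bad.Finite := hchoice.union (finite_setOf_primes_dvd hm)
  have hgood : ∀ ℓ : Nat.Primes, ℓ ∉ bad → IsGoodPrime F ℚ ℓ := fun ℓ hℓ =>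
    hgood₀ ℓ ℓ.2 fun h => hℓ (Or.inr h)
  have hex : ∀ ℓ : Nat.Primes, ℓ ∉ bad → ∃ Q : Ideal (𝓞 F), Q.IsPrime ∧
      (ℓ : 𝓞 F) ∈ Q ∧ IsFrob ℚ ℓ (φ ℓ) Q := fun ℓ hℓ => by
    by_contra h
    exact hℓ (Or.inl h)
  choose! Q hQ hmem hφ using hex
  set ψ : (F ≃ₐ[ℚ] F) → Nat.Primes → ℝ := fun g ℓ =>
    (Nat.card {x : F ≃ₐ[ℚ] F // Subgroup.zpowers (x * φ ℓ * x⁻¹) = Subgroup.zpowers g} : ℝ)
    with hψ
  have hw : ∀ g : F ≃ₐ[ℚ] F,
      HasDensity (fun ℓ => ∑ d ∈ (orderOf g).divisors, ψ (g ^ (orderOf g / d)) ℓ) (orderOf g) := by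
    intro g
    have h1 := (hasDensity_numDegreeOne
      (IntermediateField.fixedField (Subgroup.zpowers g))).const_mul (orderOf g : ℝ)
    rw [mul_one] at h1
    refine h1.congr_cofinite (hbad.subset fun ℓ hℓ => ?_)
    by_contra hnd
    apply hℓ
    have h2 := card_conj_mem_fixingSubgroup (IntermediateField.fixedField (Subgroup.zpowers g))
      ℓ.2 (hgood ℓ hnd) (hQ ℓ hnd) (hmem ℓ hnd) (hφ ℓ hnd)
    rw [IntermediateField.fixingSubgroup_fixedField, Nat.card_zpowers, card_conj_mem_zpowers] at h2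
    simp only [hψ]
    rw [numDegreeOne, ← Nat.cast_mul, ← h2, Nat.cast_sum]
  suffices key : ∀ g : F ≃ₐ[ℚ] F, HasDensity (ψ g) ((orderOf g).totient) from key g₀
  intro g
  induction hn : orderOf g using Nat.strong_induction_on generalizing g with
  | _ n ih =>
    subst hn
    have hpos := orderOf_pos g
    have h2 : HasDensity (fun ℓ => ∑ d ∈ (orderOf g).properDivisors, ψ (g ^ (orderOf g / d)) ℓ)
        (∑ d ∈ (orderOf g).properDivisors, (d.totient : ℝ)) := by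
      refine hasDensity_finsetSum _ fun d hd => ?_
      obtain ⟨hdvd, hlt⟩ := Nat.mem_properDivisors.1 hd
      have hord : orderOf (g ^ (orderOf g / d)) = d := by
        rw [orderOf_pow_of_dvd (Nat.ne_of_gt (Nat.div_pos hlt.le
          (Nat.pos_of_dvd_of_pos hdvd hpos))) (Nat.div_dvd_of_dvd hdvd),
          Nat.div_div_self hdvd hpos.ne']
      exact ih d hlt _ hord
    have h3 := (hw g).sub h2
    have h4 : (fun ℓ => (∑ d ∈ (orderOf g).divisors, ψ (g ^ (orderOf g / d)) ℓ) -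
        ∑ d ∈ (orderOf g).properDivisors, ψ (g ^ (orderOf g / d)) ℓ) = ψ g := by
      funext ℓ
      rw [← Nat.insert_self_properDivisors hpos.ne', Finset.sum_insert Nat.self_notMem_properDivisors,
        add_sub_cancel_right, Nat.div_self hpos, pow_one]
    have h5 : ((orderOf g : ℝ) - ∑ d ∈ (orderOf g).properDivisors, (d.totient : ℝ)) =
        ((orderOf g).totient : ℝ) := by
      have := congrArg (Nat.cast (R := ℝ)) (Nat.sum_totient (orderOf g))
      push_cast at this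
      rw [← Nat.insert_self_properDivisors hpos.ne',
        Finset.sum_insert Nat.self_notMem_properDivisors] at this
      linarith
    rw [h4, h5] at h3
    exact h3

/-- A function on `Gal(F/ℚ)` which is constant on divisions has density its mean at the
Frobenius elements. -/
theorem hasDensity_classFun {φ : Nat.Primes → (F ≃ₐ[ℚ] F)} (hchoice : IsFrobChoice F φ)
    (f : (F ≃ₐ[ℚ] F) → ℝ) (hconj : ∀ x g, f (g * x * g⁻¹) = f x)
    (hgen : ∀ x y, Subgroup.zpowers x = Subgroup.zpowers y → f x = f y) :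
    HasDensity (fun ℓ => f (φ ℓ)) ((∑ x, f x) / Nat.card (F ≃ₐ[ℚ] F)) := by
  classical
  have h1 := hasDensity_finsetSum Finset.univ fun y _ =>
    (hasDensity_generators hchoice y).const_mul (f y / (orderOf y).totient)
  have hcard : (Nat.card (F ≃ₐ[ℚ] F) : ℝ) ≠ 0 := Nat.cast_ne_zero.2 Nat.card_pos.ne'
  have h2 := h1.const_mul (Nat.card (F ≃ₐ[ℚ] F) : ℝ)⁻¹
  have e1 : (fun ℓ => (Nat.card (F ≃ₐ[ℚ] F) : ℝ)⁻¹ * ∑ y, f y / (orderOf y).totient *
      (Nat.card {x : F ≃ₐ[ℚ] F // Subgroup.zpowers (x * φ ℓ * x⁻¹) = Subgroup.zpowers y} : ℝ)) =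
      fun ℓ => f (φ ℓ) := by
    funext ℓ
    have h3 : ∀ x : F ≃ₐ[ℚ] F, ∑ y, (if Subgroup.zpowers (x * φ ℓ * x⁻¹) = Subgroup.zpowers y then
        f y / ((orderOf y).totient : ℝ) else 0) = f (φ ℓ) := by
      intro x
      set z := x * φ ℓ * x⁻¹
      rw [← Finset.sum_filter, Finset.sum_congr rfl
        (g := fun _ => f (φ ℓ) / ((orderOf z).totient : ℝ))]
      · rw [Finset.sum_const, nsmul_eq_mul, ← Fintype.card_subtype, ← Nat.card_eq_fintype_card,
          card_zpowers_eq]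
        exact mul_div_cancel₀ _ (Nat.cast_ne_zero.2 (Nat.totient_pos.2 (orderOf_pos z)).ne')
      · intro y hy
        have hy' := (Finset.mem_filter.1 hy).2
        rw [← hgen z y hy', hconj, ← Nat.card_zpowers y, ← hy', Nat.card_zpowers]
    have h4 : ∑ y, f y / (orderOf y).totient *
        (Nat.card {x : F ≃ₐ[ℚ] F // Subgroup.zpowers (x * φ ℓ * x⁻¹) = Subgroup.zpowers y} : ℝ) =
        (Nat.card (F ≃ₐ[ℚ] F) : ℝ) * f (φ ℓ) := by
      rw [Finset.sum_congr rfl (g := fun y => ∑ x : F ≃ₐ[ℚ] F,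
        if Subgroup.zpowers (x * φ ℓ * x⁻¹) = Subgroup.zpowers y then
          f y / ((orderOf y).totient : ℝ) else 0)]
      · rw [Finset.sum_comm]
        simp only [h3]
        rw [Finset.sum_const, Finset.card_univ, nsmul_eq_mul, Nat.card_eq_fintype_card]
      · intro y _
        rw [← Finset.sum_filter, Finset.sum_const, nsmul_eq_mul, mul_comm,
          Nat.card_eq_fintype_card, Fintype.card_subtype]
    rw [h4, inv_mul_cancel_left₀ hcard]
  have e2 : (Nat.card (F ≃ₐ[ℚ] F) : ℝ)⁻¹ * ∑ y, f y / ((orderOf y).totient : ℝ) *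
      ((orderOf y).totient : ℝ) = (∑ x, f x) / Nat.card (F ≃ₐ[ℚ] F) := by
    rw [Finset.sum_congr rfl (g := f) (fun y _ =>
      div_mul_cancel₀ _ (Nat.cast_ne_zero.2 (Nat.totient_pos.2 (orderOf_pos y)).ne')),
      div_eq_inv_mul]
  rw [e1, e2] at h2
  exact h2

variable (F)

/-- **Frobenius' density theorem**. -/
theorem infinite_setOf_frobenius (g : F ≃ₐ[ℚ] F) :
    {ℓ : Nat.Primes | IsGoodPrime F ℚ ℓ ∧ ∃ Q : Ideal (𝓞 F), Q.IsPrime ∧ (ℓ : 𝓞 F) ∈ Q ∧
      ∃ φ : F ≃ₐ[ℚ] F, IsFrob ℚ ℓ φ Q ∧ Subgroup.zpowers φ = Subgroup.zpowers g}.Infinite := by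
  classical
  choose Q hQ hmem using fun ℓ : Nat.Primes => exists_isPrime_natCast_mem F ℓ.2
  choose φ hφ using fun ℓ : Nat.Primes => exists_isFrob ℓ.2 (hQ ℓ) (hmem ℓ)
  obtain ⟨m, hm, hgood⟩ := exists_forall_isGoodPrime F ℚ
  have key := hasDensity_generators (φ := φ)
    (Set.finite_empty.subset fun ℓ hℓ => (hℓ ⟨Q ℓ, hQ ℓ, hmem ℓ, hφ ℓ⟩).elim) g
  by_contra hfin
  rw [Set.not_infinite] at hfin
  have h0 : HasDensity (fun ℓ => (Nat.card {x : F ≃ₐ[ℚ] F //
      Subgroup.zpowers (x * φ ℓ * x⁻¹) = Subgroup.zpowers g} : ℝ)) 0 := by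
    refine hasDensity_of_finite_support
      ((hfin.union (finite_setOf_primes_dvd hm)).subset fun ℓ hℓ => ?_)
    by_cases hnd : (ℓ : ℕ) ∣ m
    · exact Or.inr hnd
    refine Or.inl ?_
    simp only [Set.mem_ofPred_eq, Nat.cast_ne_zero] at hℓ
    obtain ⟨hne, -⟩ := Nat.card_ne_zero.1 hℓ
    obtain ⟨x, hx⟩ := hne
    exact ⟨hgood ℓ ℓ.2 hnd, _, inferInstance, natCast_mem_smul (hmem ℓ) x, _, (hφ ℓ).conj x, hx⟩
  have := tendsto_nhds_unique key.2 h0.2
  exact absurd this (by exact_mod_cast (Nat.totient_pos.2 (orderOf_pos g)).ne')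

/-- Frobenius' density theorem, avoiding a finite set of primes. -/
theorem exists_frobenius_zpowers_eq (g : F ≃ₐ[ℚ] F) (S : Finset ℕ) :
    ∃ ℓ : ℕ, ℓ.Prime ∧ ℓ ∉ S ∧ IsGoodPrime F ℚ ℓ ∧ ∃ Q : Ideal (𝓞 F), Q.IsPrime ∧
      (ℓ : 𝓞 F) ∈ Q ∧ ∃ φ : F ≃ₐ[ℚ] F, IsFrob ℚ ℓ φ Q ∧
        Subgroup.zpowers φ = Subgroup.zpowers g := by
  obtain ⟨ℓ, hℓ, hS⟩ := ((infinite_setOf_frobenius F g).sdiff
    (S.finite_toSet.preimage Subtype.val_injective.injOn)).nonempty
  exact ⟨ℓ, ℓ.2, hS, hℓ⟩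

end Fermat.Agent.Density

end
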