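/-
Frobenius' density theorem (1880) in the forms used by the rest of the development.

* `exists_frobenius_pow` : (a) every element of the absolute Galois group agrees, on a given
  finite extension, with a power of a Frobenius element above a prime outside a given finite
  set, and conversely.
* `forall_of_frobenius`, `eq_one_of_frobenius`, `subgroup_eq_top_of_frobenius` : (b) corollaries.
* `exists_frobenius_pow_over`, `exists_degreeOne_frobenius` : (c) versions relative to a number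
  field `K`, with Frobenius elements at primes of degree one of `K`.
-/
import Fermat.Agent.Density.Finite
import Fermat.Agent.Galois.Frobenius
import Mathlib.FieldTheory.Galois.IsGaloisGroup
import Mathlib.FieldTheory.Normal.Closure
import Mathlib.RingTheory.Ideal.Norm.AbsNorm
import Fermat.Prelude.Def_EllipticCurve_FrobeniusTrace

set_option autoImplicit false
set_option maxHeartbeats 400000

open NumberField
open scoped Pointwise

namespace Fermat.Agent.Density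

local notation "ℚbar" => AlgebraicClosure ℚ
local notation "Γℚ" => AlgebraicClosure ℚ ≃ₐ[ℚ] AlgebraicClosure ℚ

/-- A Frobenius element at `A` is congruent to the `ℓ`-th power map modulo `A`. -/
theorem sub_pow_mem_nonunits {K L : Type*} [Field K] [Field L] [Algebra K L]
    {A : ValuationSubring L} {σ : L ≃ₐ[K] L} {ℓ : ℕ} (h : A.IsFrobeniusAt σ ℓ) {x : L}
    (hx : x ∈ A) : σ x - x ^ ℓ ∈ A.nonunits := by
  have h1 := h.smul_residue_eq (IsLocalRing.residue A ⟨x, hx⟩)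
  rw [← IsLocalRing.ResidueField.residue_smul, ← map_pow, ← sub_eq_zero, ← map_sub,
    IsLocalRing.residue_eq_zero_iff, ← ValuationSubring.coe_mem_nonunits_iff] at h1
  exact h1

/-- A conjugate of a Frobenius element is a Frobenius element at the conjugate place. -/
theorem isFrobeniusAt_conj {A : ValuationSubring ℚbar} {σ : Γℚ} {ℓ : ℕ}
    (h : A.IsFrobeniusAt σ ℓ) (g : Γℚ) : (g • A).IsFrobeniusAt (g * σ * g⁻¹) ℓ := by
  have hmem : g * σ * g⁻¹ ∈ (g • A).decompositionSubgroup ℚ := by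
    rw [MulAction.mem_stabilizer_iff, mul_smul, mul_smul, inv_smul_smul,
      MulAction.mem_stabilizer_iff.1 h.mem_decompositionSubgroup]
  refine ⟨hmem, fun y => ?_⟩
  obtain ⟨⟨y, hy⟩, rfl⟩ := IsLocalRing.residue_surjective y
  rw [← IsLocalRing.ResidueField.residue_smul, ← map_pow, ← sub_eq_zero, ← map_sub,
    IsLocalRing.residue_eq_zero_iff, ← ValuationSubring.coe_mem_nonunits_iff]
  show (g * σ * g⁻¹) y - y ^ ℓ ∈ (g • A).nonunits
  rw [Galois.mem_smul_nonunits]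
  show g⁻¹ ((g * σ * g⁻¹) y - y ^ ℓ) ∈ A.nonunits
  rw [map_sub, map_pow, show g⁻¹ ((g * σ * g⁻¹) y) = σ (g⁻¹ y) by
    show (g⁻¹ * (g * σ * g⁻¹)) y = (σ * g⁻¹) y
    group]
  exact sub_pow_mem_nonunits h (ValuationSubring.mem_pointwise_smul_iff_inv_smul_mem.1 hy)

/-- The restriction to a finite Galois subfield of a Frobenius element at `A` is a Frobenius
element at the prime below `A`. -/
theorem exists_isFrob_restrictNormalHom (F : IntermediateField ℚ ℚbar) [Normal ℚ F] {ℓ : ℕ}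
    {A : ValuationSubring ℚbar} (hA : A.LiesOverPrime ℓ) {τ : Γℚ} (hτ : A.IsFrobeniusAt τ ℓ) :
    ∃ Q : Ideal (𝓞 F), Q.IsPrime ∧ (ℓ : 𝓞 F) ∈ Q ∧
      IsFrob ℚ ℓ (AlgEquiv.restrictNormalHom F τ) Q := by
  have hint : ∀ x : 𝓞 F, IsIntegral ℤ (((x : F) : ℚbar)) := fun x =>
    (RingOfIntegers.isIntegral_coe x).map (F.val.restrictScalars ℤ)
  let f : 𝓞 F →+* A :=
    ((algebraMap F ℚbar).comp (algebraMap (𝓞 F) F)).codRestrict A.toSubring
      fun x => Galois.mem_valuationSubring_of_isIntegral A (hint x)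
  have hmemQ : ∀ x : 𝓞 F,
      x ∈ (IsLocalRing.maximalIdeal A).comap f ↔ ((x : F) : ℚbar) ∈ A.nonunits := fun x => by
    rw [Ideal.mem_comap, ← ValuationSubring.coe_mem_nonunits_iff]
    rfl
  refine ⟨_, Ideal.IsPrime.comap f,
    (hmemQ _).2 (by simpa [ValuationSubring.LiesOverPrime] using hA), fun x => ?_⟩
  rw [hmemQ]
  have h1 := sub_pow_mem_nonunits hτ (Galois.mem_valuationSubring_of_isIntegral A (hint x))
  have h2 : ((AlgEquiv.restrictNormalHom F τ (x : F) : F) : ℚbar) = τ ((x : F) : ℚbar) :=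
    AlgEquiv.restrictNormal_commutes τ F (x : F)
  simpa [coe_smul_ringOfIntegers, h2] using h1

/-- Quantitative form on `ℚbar`: for any choice of Frobenius elements, a function on `Gal(F/ℚ)`
which is constant on divisions has density its mean at the Frobenius elements. -/
theorem hasDensity_classFun_qbar (F : IntermediateField ℚ ℚbar) [FiniteDimensional ℚ F]
    [Normal ℚ F] {A : Nat.Primes → ValuationSubring ℚbar}
    (hA : ∀ ℓ : Nat.Primes, (A ℓ).LiesOverPrime ℓ) {τ : Nat.Primes → Γℚ}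
    (hτ : ∀ ℓ : Nat.Primes, (A ℓ).IsFrobeniusAt (τ ℓ) ℓ) (f : (F ≃ₐ[ℚ] F) → ℝ)
    (hconj : ∀ x g, f (g * x * g⁻¹) = f x)
    (hgen : ∀ x y, Subgroup.zpowers x = Subgroup.zpowers y → f x = f y) :
    HasDensity (fun ℓ => f (AlgEquiv.restrictNormalHom F (τ ℓ)))
      ((∑ x, f x) / Nat.card (F ≃ₐ[ℚ] F)) := by
  have : NumberField F := { to_charZero := inferInstance, to_finiteDimensional := inferInstance }
  have : IsGalois ℚ F := ⟨⟩
  exact hasDensity_classFun (φ := fun ℓ => AlgEquiv.restrictNormalHom F (τ ℓ))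
    (Set.finite_empty.subset fun ℓ hℓ => (hℓ
      (exists_isFrob_restrictNormalHom F (hA ℓ) (hτ ℓ))).elim) f hconj hgen

/-- Every element of the Galois group of a finite Galois subfield `F` of `ℚbar` generates the same
cyclic subgroup as the restriction of some Frobenius element above a prime outside `S`. -/
theorem exists_frobenius_restrict_zpowers (F : IntermediateField ℚ ℚbar) [FiniteDimensional ℚ F]
    [Normal ℚ F] (g : F ≃ₐ[ℚ] F) (S : Finset ℕ) :
    ∃ ℓ : ℕ, ℓ.Prime ∧ ℓ ∉ S ∧ ∃ A : ValuationSubring ℚbar, A.LiesOverPrime ℓ ∧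
      ∃ τ : Γℚ, A.IsFrobeniusAt τ ℓ ∧
        Subgroup.zpowers (AlgEquiv.restrictNormalHom F τ) = Subgroup.zpowers g := by
  have : NumberField F := { to_charZero := inferInstance, to_finiteDimensional := inferInstance }
  have : IsGalois ℚ F := ⟨⟩
  obtain ⟨ℓ, hℓ, hS, hgood, Q, hQ, hmem, φ, hφ, hz⟩ := exists_frobenius_zpowers_eq F g S
  obtain ⟨A₀, τ₀, hA₀, hτ₀⟩ := Galois.exists_valuationSubring_isFrobeniusAt hℓ
  obtain ⟨Q₀, hQ₀', hℓ₀, hfrob₀⟩ := exists_isFrob_restrictNormalHom F hA₀ hτ₀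
  obtain ⟨y, hy⟩ := Algebra.IsInvariant.exists_smul_of_under_eq ℤ (𝓞 F) (F ≃ₐ[ℚ] F) Q₀ Q
    (by rw [under_int_eq_span hQ₀'.ne_top hℓ hℓ₀, under_int_eq_span hQ.ne_top hℓ hmem])
  obtain ⟨y', hy'⟩ := AlgEquiv.restrictNormalHom_surjective (F := ℚ) (K₁ := F) ℚbar y
  subst hy
  have heq : φ = y * AlgEquiv.restrictNormalHom F τ₀ * y⁻¹ :=
    IsFrob.unique hgood hQ hmem hφ (hfrob₀.conj y)
  refine ⟨ℓ, hℓ, hS, y' • A₀, ?_, y' * τ₀ * y'⁻¹, isFrobeniusAt_conj hτ₀ y', ?_⟩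
  · show (ℓ : ℚbar) ∈ (y' • A₀).nonunits
    rw [Galois.mem_smul_nonunits, AlgEquiv.smul_def, map_natCast]
    exact hA₀
  · rw [map_mul, map_mul, map_inv, hy', ← heq, hz]

/-- Elements generating the same subgroup of `Gal(F/ℚ)` agree on `L ≤ F` up to powers. -/
theorem exists_pow_eq_on {F L : IntermediateField ℚ ℚbar} [FiniteDimensional ℚ F] [Normal ℚ F]
    (hLF : L ≤ F) {σ τ : Γℚ}
    (h : AlgEquiv.restrictNormalHom F σ ∈ Subgroup.zpowers (AlgEquiv.restrictNormalHom F τ)) :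
    ∃ k : ℕ, ∀ x ∈ L, σ x = (τ ^ k) x := by
  obtain ⟨k, hk⟩ := mem_powers_iff_mem_zpowers.2 h
  refine ⟨k, fun x hx => ?_⟩
  have h1 := AlgEquiv.restrictNormal_commutes σ F ⟨x, hLF hx⟩
  have h2 := AlgEquiv.restrictNormal_commutes (τ ^ k) F ⟨x, hLF hx⟩
  exact h1.symm.trans ((congrArg (fun e : F ≃ₐ[ℚ] F => algebraMap F ℚbar (e ⟨x, hLF hx⟩))
    (show AlgEquiv.restrictNormalHom F σ = AlgEquiv.restrictNormalHom F (τ ^ k) by
      rw [map_pow]; exact hk.symm)).trans h2)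

/-- (a) Frobenius' density theorem, at the level of the absolute Galois group. -/
theorem exists_frobenius_pow (σ : Γℚ) (L : IntermediateField ℚ ℚbar) [FiniteDimensional ℚ L]
    (S : Finset ℕ) :
    ∃ ℓ : ℕ, ℓ.Prime ∧ ℓ ∉ S ∧ ∃ A : ValuationSubring ℚbar, A.LiesOverPrime ℓ ∧
      ∃ τ : Γℚ, A.IsFrobeniusAt τ ℓ ∧
        (∃ k : ℕ, ∀ x ∈ L, σ x = (τ ^ k) x) ∧ ∃ k : ℕ, ∀ x ∈ L, τ x = (σ ^ k) x := by
  let F := IntermediateField.normalClosure ℚ L ℚbar
  have : Normal ℚ F := normalClosure.normal ℚ L ℚbar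
  have hLF : L ≤ F := L.le_normalClosure
  obtain ⟨ℓ, hℓ, hS, A, hA, τ, hτ, hz⟩ :=
    exists_frobenius_restrict_zpowers F (AlgEquiv.restrictNormalHom F σ) S
  exact ⟨ℓ, hℓ, hS, A, hA, τ, hτ,
    exists_pow_eq_on hLF (by rw [hz]; exact Subgroup.mem_zpowers _),
    exists_pow_eq_on hLF (by rw [← hz]; exact Subgroup.mem_zpowers _)⟩

/-- (b) A property which only depends on the restriction to a finite extension `L`, which is
inherited by powers, and which holds at all Frobenius elements above primes outside a finite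
set, holds everywhere. -/
theorem forall_of_frobenius {P : Γℚ → Prop} (L : IntermediateField ℚ ℚbar)
    [FiniteDimensional ℚ L] (hL : ∀ σ τ : Γℚ, (∀ x ∈ L, σ x = τ x) → P σ → P τ)
    (hpow : ∀ (σ : Γℚ) (k : ℕ), P σ → P (σ ^ k)) (S : Finset ℕ)
    (h : ∀ ℓ : ℕ, ℓ.Prime → ℓ ∉ S → ∀ A : ValuationSubring ℚbar, A.LiesOverPrime ℓ →
      ∀ τ : Γℚ, A.IsFrobeniusAt τ ℓ → P τ) (σ : Γℚ) : P σ := by
  obtain ⟨ℓ, hℓ, hS, A, hA, τ, hτ, ⟨k, hk⟩, -⟩ := exists_frobenius_pow σ L S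
  exact hL (τ ^ k) σ (fun x hx => (hk x hx).symm) (hpow τ k (h ℓ hℓ hS A hA τ hτ))

/-- (b') A homomorphism of finite level which kills all Frobenius elements above primes outside
a finite set is trivial. -/
theorem eq_one_of_frobenius {M : Type*} [Monoid M] (ρ : Γℚ →* M)
    (L : IntermediateField ℚ ℚbar) [FiniteDimensional ℚ L]
    (hL : ∀ σ : Γℚ, (∀ x ∈ L, σ x = x) → ρ σ = 1) (S : Finset ℕ)
    (h : ∀ ℓ : ℕ, ℓ.Prime → ℓ ∉ S → ∀ A : ValuationSubring ℚbar, A.LiesOverPrime ℓ →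
      ∀ τ : Γℚ, A.IsFrobeniusAt τ ℓ → ρ τ = 1) : ρ = 1 := by
  refine MonoidHom.ext fun σ => ?_
  refine forall_of_frobenius (P := fun σ => ρ σ = 1) L (fun σ τ hστ hσ => ?_)
    (fun σ k hσ => by rw [map_pow, hσ, one_pow]) S h σ
  have h1 : ρ (σ⁻¹ * τ) = 1 := hL _ fun x hx => by
    rw [AlgEquiv.mul_apply, ← hστ x hx, ← AlgEquiv.mul_apply, inv_mul_cancel, AlgEquiv.one_apply]
  calc ρ τ = ρ σ * ρ (σ⁻¹ * τ) := by rw [← map_mul, mul_inv_cancel_left]
    _ = 1 := by rw [hσ, h1, one_mul]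

/-- (b'') A subgroup containing the fixing group of a finite extension and all Frobenius
elements above primes outside a finite set is the whole group. -/
theorem subgroup_eq_top_of_frobenius (H : Subgroup Γℚ) (L : IntermediateField ℚ ℚbar)
    [FiniteDimensional ℚ L] (hL : L.fixingSubgroup ≤ H) (S : Finset ℕ)
    (h : ∀ ℓ : ℕ, ℓ.Prime → ℓ ∉ S → ∀ A : ValuationSubring ℚbar, A.LiesOverPrime ℓ →
      ∀ τ : Γℚ, A.IsFrobeniusAt τ ℓ → τ ∈ H) : H = ⊤ := by
  refine (Subgroup.eq_top_iff' H).2 fun σ => ?_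
  refine forall_of_frobenius (P := fun σ => σ ∈ H) L (fun σ τ hστ hσ => ?_)
    (fun σ k hσ => H.pow_mem hσ k) S h σ
  have h1 : σ⁻¹ * τ ∈ H := hL ((IntermediateField.mem_fixingSubgroup_iff _ _).2 fun x hx => by
    rw [AlgEquiv.mul_apply, ← hστ x hx, ← AlgEquiv.mul_apply, inv_mul_cancel, AlgEquiv.one_apply])
  simpa using H.mul_mem hσ h1

/-- (c) Relative form: if `σ` fixes the number field `K` pointwise, the Frobenius element `τ` can
be chosen fixing `K` pointwise; the prime of `K` below it then has residue field `𝔽_ℓ`. -/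
theorem exists_frobenius_pow_over (K L : IntermediateField ℚ ℚbar) [FiniteDimensional ℚ K]
    [FiniteDimensional ℚ L] (σ : Γℚ) (hσ : ∀ x ∈ K, σ x = x) (S : Finset ℕ) :
    ∃ ℓ : ℕ, ℓ.Prime ∧ ℓ ∉ S ∧ ∃ A : ValuationSubring ℚbar, A.LiesOverPrime ℓ ∧
      ∃ τ : Γℚ, A.IsFrobeniusAt τ ℓ ∧ (∀ x ∈ K, τ x = x) ∧
        (∀ x ∈ K, x ∈ A → x ^ ℓ - x ∈ A.nonunits) ∧
        (∃ k : ℕ, ∀ x ∈ L, σ x = (τ ^ k) x) ∧ ∃ k : ℕ, ∀ x ∈ L, τ x = (σ ^ k) x := by
  obtain ⟨ℓ, hℓ, hS, A, hA, τ, hτ, ⟨k, hk⟩, ⟨k', hk'⟩⟩ := exists_frobenius_pow σ (K ⊔ L) S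
  have hfixk : ∀ (j : ℕ), ∀ x ∈ K, (σ ^ j) x = x := by
    intro j
    induction j with
    | zero => simp
    | succ j ih => intro x hx; rw [pow_succ, AlgEquiv.mul_apply, hσ x hx, ih x hx]
  have hfix : ∀ x ∈ K, τ x = x := fun x hx => by
    rw [hk' x ((le_sup_left : K ≤ K ⊔ L) hx), hfixk k' x hx]
  refine ⟨ℓ, hℓ, hS, A, hA, τ, hτ, hfix, fun x hx hxA => ?_,
    ⟨k, fun x hx => hk x ((le_sup_right : L ≤ K ⊔ L) hx)⟩,
    ⟨k', fun x hx => hk' x ((le_sup_right : L ≤ K ⊔ L) hx)⟩⟩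
  have := sub_pow_mem_nonunits hτ hxA
  rw [hfix x hx] at this
  simpa using neg_mem this

/-- (c') Relative form for an abstract finite Galois extension `M/K` of number fields: there is a
prime `P` of `K` of degree one, above a prime number outside `S`, and a prime `Q` of `M` above it,
unramified, whose Frobenius generates the same cyclic subgroup as `g`. -/
theorem exists_degreeOne_frobenius (K M : Type*) [Field K] [NumberField K] [Field M]
    [NumberField M] [Algebra K M] [IsGalois K M] (g : M ≃ₐ[K] M) (S : Finset ℕ) :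
    ∃ (ℓ : ℕ) (P : Ideal (𝓞 K)) (Q : Ideal (𝓞 M)) (φ : M ≃ₐ[K] M),
      ℓ.Prime ∧ ℓ ∉ S ∧ P.IsPrime ∧ Ideal.absNorm P = ℓ ∧ Q.IsPrime ∧ Q.LiesOver P ∧
        Q.inertia (M ≃ₐ[K] M) = ⊥ ∧ IsArithFrobAt (𝓞 K) φ Q ∧
        Subgroup.zpowers φ = Subgroup.zpowers g := by
  classical
  obtain ⟨m, hm, hgoodM⟩ := exists_forall_isGoodPrime M K
  let F := IntermediateField.normalClosure ℚ M (AlgebraicClosure M)
  have : Algebra.IsAlgebraic ℚ (AlgebraicClosure M) :=
    Algebra.IsAlgebraic.trans ℚ M (AlgebraicClosure M)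
  have : IsAlgClosure ℚ (AlgebraicClosure M) := ⟨inferInstance, inferInstance⟩
  have : Normal ℚ (AlgebraicClosure M) := IsAlgClosure.normal ℚ (AlgebraicClosure M)
  have : Normal ℚ F := normalClosure.normal ℚ M (AlgebraicClosure M)
  let algKF : Algebra K F := ((algebraMap M F).comp (algebraMap K M)).toAlgebra
  have : IsScalarTower K M F := IsScalarTower.of_algebraMap_eq fun _ => rfl
  have : IsScalarTower ℚ K F := IsScalarTower.of_algebraMap_eq fun r => by simp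
  have : NumberField F := { to_charZero := inferInstance, to_finiteDimensional := inferInstance }
  have : IsGalois ℚ F := ⟨⟩
  have : IsGalois K F := IsGalois.tower_top_of_isGalois ℚ K F
  obtain ⟨g', hg'⟩ := AlgEquiv.restrictNormalHom_surjective (F := K) (K₁ := M) F g
  obtain ⟨ℓ, hℓ, hS, -, Q, hQ, hmem, φ, hφ, hz⟩ :=
    exists_frobenius_zpowers_eq F (g'.restrictScalars ℚ) (S ∪ m.divisors)
  rw [Finset.mem_union, not_or] at hS
  let r : (F ≃ₐ[K] F) →* (F ≃ₐ[ℚ] F) :=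
    { toFun := fun e => e.restrictScalars ℚ, map_one' := rfl, map_mul' := fun _ _ => rfl }
  obtain ⟨k, hk⟩ : ∃ k : ℕ, (r g') ^ k = φ :=
    mem_powers_iff_mem_zpowers.2 (by
      show φ ∈ Subgroup.zpowers (g'.restrictScalars ℚ)
      rw [← hz]; exact Subgroup.mem_zpowers φ)
  rw [← map_pow] at hk
  obtain ⟨j, hj⟩ : ∃ j : ℕ, φ ^ j = r g' :=
    mem_powers_iff_mem_zpowers.2 (by
      show g'.restrictScalars ℚ ∈ Subgroup.zpowers φ
      rw [hz]; exact Subgroup.mem_zpowers _)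
  have hg'j : g' = (g' ^ k) ^ j :=
    AlgEquiv.restrictScalars_injective ℚ (show r g' = r ((g' ^ k) ^ j) by rw [map_pow, hk, hj])
  set φ' := g ^ k with hφ'
  have hcomm : ∀ x : M, algebraMap M F (φ' x) = φ (algebraMap M F x) := by
    intro x
    rw [← hk, hφ', ← hg', ← map_pow]
    exact AlgEquiv.restrictNormal_commutes (g' ^ k) M x
  have hP : Ideal.absNorm (Q.under (𝓞 K)) = ℓ := absNorm_under_eq hℓ hQ hmem hφ fun x => by
    rw [← hk]
    exact (g' ^ k).commutes x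
  refine ⟨ℓ, Q.under (𝓞 K), Q.under (𝓞 M), φ', hℓ, hS.1, hQ.comap _, hP, hQ.comap _,
    ⟨(Ideal.under_under _).symm⟩, ?_, fun x => ?_, ?_⟩
  · refine hgoodM ℓ hℓ (fun h => hS.2 (Nat.mem_divisors.2 ⟨h, hm⟩)) _ (hQ.comap _) ?_
    simpa [Ideal.mem_comap] using hmem
  · rw [Ideal.under_under, ← Submodule.cardQuot_apply, ← Ideal.absNorm_apply, hP,
      Ideal.mem_comap, map_sub, map_pow]
    have h1 : algebraMap (𝓞 M) (𝓞 F) (φ' • x) = φ • algebraMap (𝓞 M) (𝓞 F) x :=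
      RingOfIntegers.ext (hcomm x)
    show algebraMap (𝓞 M) (𝓞 F) (φ' • x) - _ ∈ Q
    rw [h1]
    exact hφ _
  · refine le_antisymm (Subgroup.zpowers_le.2 (Subgroup.npow_mem_zpowers g k))
      (Subgroup.zpowers_le.2 ?_)
    have : g = φ' ^ j := by rw [hφ', ← hg', ← map_pow, ← map_pow, ← hg'j]
    rw [this]
    exact Subgroup.npow_mem_zpowers φ' j

end Fermat.Agent.Density
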